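/-
S55 (Program C), leaf C1-b (helper80): cochain-level cores.  If the restriction of a 1- or
2-cocycle of `G` to a subgroup `S` of finite index is a coboundary, then `[G : S]` times the
cocycle is a coboundary.  Pure algebra on functions; no homological language.
-/
import Mathlib

set_option autoImplicit false

open scoped BigOperators

namespace Fermat.Agent.S55.H80

variable {G : Type*} [Group G]

/-- Summing a right-`S`-invariant function over coset representatives is invariant under left
translation. -/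
theorem sum_out_mul {M : Type*} [AddCommMonoid M] (S : Subgroup G) [Fintype (G ⧸ S)]
    (F : G → M) (hF : ∀ (x : G) (s : S), F (x * s) = F x) (g : G) :
    ∑ q : G ⧸ S, F (g * q.out) = ∑ q : G ⧸ S, F q.out := by
  have key : ∀ q : G ⧸ S, F (g * q.out) = F ((g • q).out) := by
    intro q
    have h1 : g • q = ((g * q.out : G) : G ⧸ S) := by
      conv_lhs => rw [← QuotientGroup.out_eq' q]
      rfl
    obtain ⟨s, hs⟩ := QuotientGroup.mk_out_eq_mul S (g * q.out)
    rw [h1, hs, hF]
  simp_rw [key]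
  exact Equiv.sum_comp (MulAction.toPerm g) (fun q : G ⧸ S => F q.out)

section Deg1

variable {k A : Type*} [CommSemiring k] [AddCommGroup A] [Module k A] (ρ : Representation k G A)

/-- **Degree 1 core.** -/
theorem deg1_core (S : Subgroup G) [Fintype (G ⧸ S)] (f : G → A)
    (hf : ∀ g h : G, f (g * h) = ρ g (f h) + f g) (a : A)
    (ha : ∀ s : S, ρ (s : G) a - a = f s) :
    ∃ b : A, ∀ g : G, ρ g b - b = Fintype.card (G ⧸ S) • f g := by
  set f' : G → A := fun g => f g - (ρ g a - a) with hf'
  have h1 : ∀ g h : G, f' (g * h) = ρ g (f' h) + f' g := by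
    intro g h
    simp only [hf', hf g h, map_mul, map_sub, Module.End.mul_apply]
    abel
  have h2 : ∀ s : S, f' s = 0 := by
    intro s
    simp only [hf', ha s, sub_self]
  have h3 : ∀ (x : G) (s : S), f' (x * s) = f' x := by
    intro x s
    rw [h1, h2, map_zero, zero_add]
  set c : A := ∑ q : G ⧸ S, f' q.out with hc
  have h4 : ∀ g : G, ρ g c + Fintype.card (G ⧸ S) • f' g = c := by
    intro g
    have e1 := sum_out_mul S f' h3 g
    have e2 : ∑ q : G ⧸ S, f' (g * q.out) = ρ g c + Fintype.card (G ⧸ S) • f' g := by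
      simp_rw [h1 g]
      rw [Finset.sum_add_distrib, Finset.sum_const, Finset.card_univ, hc, map_sum]
    rw [← e2, e1]
  refine ⟨Fintype.card (G ⧸ S) • a - c, fun g => ?_⟩
  have e3 : Fintype.card (G ⧸ S) • f g
      = Fintype.card (G ⧸ S) • f' g + Fintype.card (G ⧸ S) • (ρ g a - a) := by
    rw [← smul_add]
    simp only [hf', sub_add_cancel]
  have e4 : Fintype.card (G ⧸ S) • f' g = c - ρ g c := by
    rw [eq_sub_iff_add_eq, add_comm]
    exact h4 g
  rw [e3, e4, map_sub, map_nsmul, smul_sub]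
  abel

end Deg1

section Deg2

variable {k A : Type*} [CommSemiring k] [AddCommGroup A] [Module k A] (ρ : Representation k G A)

/-- The coboundary of a 1-cochain satisfies the 2-cocycle identity. -/
theorem isCocycle_dOne (u : G → A) (g h j : G) :
    (ρ (g * h) (u j) - u (g * h * j) + u (g * h)) + (ρ g (u h) - u (g * h) + u g)
      = ρ g (ρ h (u j) - u (h * j) + u h) + (ρ g (u (h * j)) - u (g * (h * j)) + u g) := by
  simp only [map_mul, map_sub, map_add, Module.End.mul_apply, mul_assoc]
  abel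

/-- **Degree 2 core.** -/
theorem deg2_core (S : Subgroup G) [Fintype (G ⧸ S)] (f : G × G → A)
    (hf : ∀ g h j : G, f (g * h, j) + f (g, h) = ρ g (f (h, j)) + f (g, h * j))
    (b : S → A)
    (hb : ∀ s s' : S, ρ (s : G) (b s') - b (s * s') + b s = f ((s : G), (s' : G))) :
    ∃ c : G → A, ∀ g h : G,
      ρ g (c h) - c (g * h) + c g = Fintype.card (G ⧸ S) • f (g, h) := by
  classical
  -- Step 1: extend `b` by zero and subtract its coboundary
  set bt : G → A := fun g => if h : g ∈ S then b ⟨g, h⟩ else 0 with hbt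
  have hbtS : ∀ s : S, bt (s : G) = b s := by
    intro s
    simp only [hbt, dif_pos s.2]
  set f₁ : G × G → A := fun x => f x - (ρ x.1 (bt x.2) - bt (x.1 * x.2) + bt x.1) with hf₁
  have hf₁c : ∀ g h j : G, f₁ (g * h, j) + f₁ (g, h) = ρ g (f₁ (h, j)) + f₁ (g, h * j) := by
    intro g h j
    have e1 := hf g h j
    have e2 := isCocycle_dOne ρ bt g h j
    simp only [hf₁, map_sub]
    rw [← sub_eq_zero] at e1 e2 ⊢
    have : (f (g * h, j) - (ρ (g * h) (bt j) - bt (g * h * j) + bt (g * h)) +
        (f (g, h) - (ρ g (bt h) - bt (g * h) + bt g)) -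
        (ρ g (f (h, j)) - ρ g (ρ h (bt j) - bt (h * j) + bt h) +
          (f (g, h * j) - (ρ g (bt (h * j)) - bt (g * (h * j)) + bt g))))
        = (f (g * h, j) + f (g, h) - (ρ g (f (h, j)) + f (g, h * j)))
          - ((ρ (g * h) (bt j) - bt (g * h * j) + bt (g * h)) + (ρ g (bt h) - bt (g * h) + bt g)
            - (ρ g (ρ h (bt j) - bt (h * j) + bt h)
              + (ρ g (bt (h * j)) - bt (g * (h * j)) + bt g))) := by
      abel
    rw [this, e1, e2, sub_zero]
  have hf₁S : ∀ s s' : S, f₁ ((s : G), (s' : G)) = 0 := by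
    intro s s'
    have e : bt ((s : G) * (s' : G)) = b (s * s') := hbtS (s * s')
    simp only [hf₁, hbtS, e, hb s s', sub_self]
  -- Step 2: coset representatives and the correcting cochain `u`
  set t : G → G := fun g => ((g : G ⧸ S)).out with ht
  have htS : ∀ g : G, (t g)⁻¹ * g ∈ S := by
    intro g
    have h1 : ((t g : G) : G ⧸ S) = (g : G ⧸ S) := QuotientGroup.out_eq' _
    exact QuotientGroup.eq.mp h1
  have ht_mul : ∀ (g : G) (s : S), t (g * s) = t g := by
    intro g s
    have h1 : ((g * s : G) : G ⧸ S) = (g : G ⧸ S) := by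
      rw [QuotientGroup.eq]
      simp
    simp only [ht, h1]
  set u : G → A := fun g => - f₁ (t g, (t g)⁻¹ * g) with hu
  have huS : ∀ s : S, u (s : G) = 0 := by
    intro s
    have h1 : (t (s : G))⁻¹ * (s : G) ∈ S := htS s
    have h2 : t (s : G) ∈ S := by
      have h3 : ((t (s : G))⁻¹ * (s : G))⁻¹ ∈ S := S.inv_mem h1
      have h4 := S.mul_mem s.2 h3
      have e : (s : G) * ((t (s : G))⁻¹ * (s : G))⁻¹ = t (s : G) := by group
      rwa [e] at h4
    have := hf₁S ⟨t (s : G), h2⟩ ⟨(t (s : G))⁻¹ * (s : G), h1⟩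
    simp only [hu]
    rw [this, neg_zero]
  have hu_mul : ∀ (g : G) (s : S), u (g * s) - u g = - f₁ (g, (s : G)) := by
    intro g s
    have e1 := hf₁c (t g) ((t g)⁻¹ * g) (s : G)
    have e2 : f₁ ((t g)⁻¹ * g, (s : G)) = 0 := hf₁S ⟨(t g)⁻¹ * g, htS g⟩ s
    have e3 : t g * ((t g)⁻¹ * g) = g := by group
    have e4 : (t g)⁻¹ * g * (s : G) = (t g)⁻¹ * (g * s) := by group
    rw [e2, map_zero, zero_add, e3, e4] at e1
    simp only [hu, ht_mul g s]
    rw [← e1]
    abel
  set f' : G × G → A := fun x => f₁ x - (ρ x.1 (u x.2) - u (x.1 * x.2) + u x.1) with hf'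
  have hf'c : ∀ g h j : G, f' (g * h, j) + f' (g, h) = ρ g (f' (h, j)) + f' (g, h * j) := by
    intro g h j
    have e1 := hf₁c g h j
    have e2 := isCocycle_dOne ρ u g h j
    simp only [hf', map_sub]
    rw [← sub_eq_zero] at e1 e2 ⊢
    have : (f₁ (g * h, j) - (ρ (g * h) (u j) - u (g * h * j) + u (g * h)) +
        (f₁ (g, h) - (ρ g (u h) - u (g * h) + u g)) -
        (ρ g (f₁ (h, j)) - ρ g (ρ h (u j) - u (h * j) + u h) +
          (f₁ (g, h * j) - (ρ g (u (h * j)) - u (g * (h * j)) + u g))))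
        = (f₁ (g * h, j) + f₁ (g, h) - (ρ g (f₁ (h, j)) + f₁ (g, h * j)))
          - ((ρ (g * h) (u j) - u (g * h * j) + u (g * h)) + (ρ g (u h) - u (g * h) + u g)
            - (ρ g (ρ h (u j) - u (h * j) + u h)
              + (ρ g (u (h * j)) - u (g * (h * j)) + u g))) := by
      abel
    rw [this, e1, e2, sub_zero]
  have hf'S : ∀ (g : G) (s : S), f' (g, (s : G)) = 0 := by
    intro g s
    have e1 := hu_mul g s
    simp only [hf', huS s, map_zero, zero_sub]
    rw [sub_eq_iff_eq_add] at e1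
    rw [e1]
    abel
  have hf'inv : ∀ (g x : G) (s : S), f' (g, x * s) = f' (g, x) := by
    intro g x s
    have e1 := hf'c g x (s : G)
    rw [hf'S (g * x) s, hf'S x s, map_zero, zero_add, zero_add] at e1
    exact e1.symm
  -- Step 3: sum over the cosets
  set c : G → A := fun g => ∑ q : G ⧸ S, f' (g, q.out) with hc
  have hc' : ∀ g h : G, c (g * h) + Fintype.card (G ⧸ S) • f' (g, h) = ρ g (c h) + c g := by
    intro g h
    have e1 : ∑ q : G ⧸ S, (f' (g * h, q.out) + f' (g, h))
        = ∑ q : G ⧸ S, (ρ g (f' (h, q.out)) + f' (g, h * q.out)) :=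
      Finset.sum_congr rfl fun q _ => hf'c g h q.out
    rw [Finset.sum_add_distrib, Finset.sum_add_distrib, Finset.sum_const, Finset.card_univ,
      sum_out_mul S (fun x => f' (g, x)) (fun x s => hf'inv g x s) h, ← map_sum] at e1
    exact e1
  refine ⟨fun g => c g + Fintype.card (G ⧸ S) • (u g + bt g), fun g h => ?_⟩
  have e1 : Fintype.card (G ⧸ S) • f' (g, h) = ρ g (c h) + c g - c (g * h) := by
    rw [eq_sub_iff_add_eq, add_comm]
    exact hc' g h
  have e2 : f (g, h) = f' (g, h) + (ρ g (u h) - u (g * h) + u g)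
      + (ρ g (bt h) - bt (g * h) + bt g) := by
    simp only [hf', hf₁]
    abel
  rw [e2, smul_add, smul_add, e1]
  simp only [map_add, map_nsmul, smul_add, smul_sub]
  abel

end Deg2

end Fermat.Agent.S55.H80
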