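/-
S55 (Program C), leaf C1-b (helper80): the kernel of the restriction
`Hⁿ(G, A) ⟶ Hⁿ(S, A)` (`n = 1, 2`) to a subgroup of finite index is killed by the index.
Statement verbatim from helper84's `C1Spec` (#1983).
-/
import Fermat.Agent.S55.H80.ResIndexCore

set_option autoImplicit false

universe u

open CategoryTheory groupCohomology Rep

namespace Fermat.Agent.S55.H80

variable {k G : Type u} [CommRing k] [Group G]

/-- **C1-b.**  If the restriction of a class `x ∈ Hⁿ(G, A)` (`n = 1, 2`) to a subgroup `S` of
finite index vanishes, then `[G : S] • x = 0`. -/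
theorem index_smul_eq_zero_of_res_eq_zero (A : Rep k G) (S : Subgroup G) [S.FiniteIndex] (n : ℕ)
    (hn : n = 1 ∨ n = 2) (x : groupCohomology A n)
    (hx : (map S.subtype (𝟙 (res S.subtype A)) n).hom x = 0) : S.index • x = 0 := by
  classical
  haveI : Fintype (G ⧸ S) := Subgroup.fintypeQuotientOfFiniteIndex
  have hcard : S.index = Fintype.card (G ⧸ S) := by
    rw [Subgroup.index_eq_card, Nat.card_eq_fintype_card]
  rcases hn with rfl | rfl
  · induction x using H1_induction_on with | @h f =>
    have h1 : (H1π (res S.subtype A)) ((mapCocycles₁ S.subtype (𝟙 (res S.subtype A))) f) = 0 := by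
      rw [← H1π_comp_map_apply]
      exact hx
    rw [H1π_eq_zero_iff] at h1
    obtain ⟨a, ha⟩ := h1
    have hf := (mem_cocycles₁_iff f).1 f.2
    obtain ⟨b, hb⟩ := deg1_core A.ρ S f hf a (fun s => by
      have := congrFun ha s
      exact this)
    rw [← map_nsmul, H1π_eq_zero_iff]
    refine ⟨b, funext fun g => ?_⟩
    rw [hcard]
    exact hb g
  · induction x using H2_induction_on with | @h f =>
    have h1 : (H2π (res S.subtype A)) ((mapCocycles₂ S.subtype (𝟙 (res S.subtype A))) f) = 0 := by
      rw [← H2π_comp_map_apply]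
      exact hx
    rw [H2π_eq_zero_iff] at h1
    obtain ⟨b, hb⟩ := h1
    have hf := (mem_cocycles₂_iff f).1 f.2
    obtain ⟨c, hc⟩ := deg2_core A.ρ S f hf b (fun s s' => by
      have := congrFun hb (s, s')
      exact this)
    rw [← map_nsmul, H2π_eq_zero_iff]
    refine ⟨c, funext fun x => ?_⟩
    rw [hcard]
    exact hc x.1 x.2

end Fermat.Agent.S55.H80
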