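/-
S55 (Program C), leaf C1-b (helper80): corollaries of "`ker res` is killed by the index":
`Hⁿ(G, A)` (`n = 1, 2`) of a finite group is killed by `|G|`, and the two Sylow corollaries.
Statements verbatim from helper84's `C1Spec` (#1983).
-/
import Fermat.Agent.S55.H80.ResIndex

set_option autoImplicit false

universe u

open CategoryTheory groupCohomology Rep

namespace Fermat.Agent.S55.H80

variable {k G : Type u} [CommRing k] [Group G]

/-- Two coprime integers killing `x` force `x = 0`. -/
theorem eq_zero_of_coprime_nsmul {M : Type*} [AddCommGroup M] {x : M} {m m' : ℕ}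
    (hc : Nat.Coprime m m') (h : m • x = 0) (h' : m' • x = 0) : x = 0 := by
  rw [← addOrderOf_dvd_iff_nsmul_eq_zero] at h h'
  have h1 : addOrderOf x ∣ Nat.gcd m m' := Nat.dvd_gcd h h'
  rw [hc] at h1
  exact AddMonoid.addOrderOf_eq_one_iff.mp (Nat.dvd_one.mp h1)

/-- **C1-b, corollary.**  `Hⁿ(G, A)` (`n = 1, 2`) of a finite group is killed by `|G|`. -/
theorem card_smul_eq_zero [Finite G] (A : Rep k G) (n : ℕ) (hn : n = 1 ∨ n = 2)
    (x : groupCohomology A n) : Nat.card G • x = 0 := by
  have key : (map (⊥ : Subgroup G).subtype (𝟙 (res (⊥ : Subgroup G).subtype A)) n).hom x = 0 := by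
    rcases hn with rfl | rfl
    · induction x using H1_induction_on with | @h f =>
      have e := H1π_comp_map_apply (⊥ : Subgroup G).subtype
        (𝟙 (res (⊥ : Subgroup G).subtype A)) f
      refine e.trans ?_
      rw [H1π_eq_zero_iff]
      refine ⟨0, funext fun s => ?_⟩
      have hs : (s : G) = 1 := Subgroup.mem_bot.mp s.2
      have h1 : f (s : G) = 0 := by rw [hs]; exact cocycles₁_map_one f
      rw [map_zero]
      exact h1.symm
    · induction x using H2_induction_on with | @h f =>
      have e := H2π_comp_map_apply (⊥ : Subgroup G).subtype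
        (𝟙 (res (⊥ : Subgroup G).subtype A)) f
      refine e.trans ?_
      rw [H2π_eq_zero_iff]
      refine ⟨fun _ => f (1, 1), funext fun s => ?_⟩
      have hs1 : (s.1 : G) = 1 := Subgroup.mem_bot.mp s.1.2
      have hs2 : (s.2 : G) = 1 := Subgroup.mem_bot.mp s.2.2
      have h1 : f ((s.1 : G), (s.2 : G)) = f (1, 1) := by rw [hs1, hs2]
      have h2 : (res (⊥ : Subgroup G).subtype A).ρ s.1 (f (1, 1)) = f (1, 1) := by
        show A.ρ (s.1 : G) (f (1, 1)) = f (1, 1)
        rw [hs1, map_one]
        rfl
      show (res (⊥ : Subgroup G).subtype A).ρ s.1 (f (1, 1)) - f (1, 1) + f (1, 1)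
        = f ((s.1 : G), (s.2 : G))
      rw [h2, h1]
      abel
  have h := index_smul_eq_zero_of_res_eq_zero A (⊥ : Subgroup G) n hn x key
  rwa [Subgroup.index_bot] at h

/-- **C1-b, Sylow corollary (vanishing).**  If for every prime `p` some subgroup `S` of `G` with
`p ∤ [G : S]` has `Hⁿ(S, A) = 0`, then `Hⁿ(G, A) = 0` (`n = 1, 2`). -/
theorem isZero_of_forall_prime [Finite G] (A : Rep k G) (n : ℕ) (hn : n = 1 ∨ n = 2)
    (h : ∀ p : ℕ, p.Prime → ∃ S : Subgroup G, ¬ p ∣ S.index ∧
      Limits.IsZero (groupCohomology (res S.subtype A) n)) :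
    Limits.IsZero (groupCohomology A n) := by
  have hall : ∀ x : groupCohomology A n, x = 0 := by
    intro x
    by_contra hx
    have h1 : addOrderOf x ≠ 1 := fun h1 => hx (AddMonoid.addOrderOf_eq_one_iff.mp h1)
    obtain ⟨p, hp, hpx⟩ := Nat.exists_prime_and_dvd h1
    obtain ⟨S, hS, hZ⟩ := h p hp
    have hsub := ModuleCat.subsingleton_of_isZero hZ
    have h2 : (map S.subtype (𝟙 (res S.subtype A)) n).hom x = 0 := Subsingleton.elim _ _
    have h3 := index_smul_eq_zero_of_res_eq_zero A S n hn x h2
    rw [← addOrderOf_dvd_iff_nsmul_eq_zero] at h3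
    exact hS (hpx.trans h3)
  have : Subsingleton (groupCohomology A n) := ⟨fun x y => by rw [hall x, hall y]⟩
  exact ModuleCat.isZero_of_subsingleton _

/-- **C1-b, Sylow corollary (orders).**  If for every prime `p` some subgroup `S` with
`p ∤ [G : S]` has `#Hⁿ(S, A)` dividing `#S`, then `#Hⁿ(G, A)` divides `#G` (`n = 1, 2`). -/
theorem natCard_dvd_card_of_forall_prime [Finite G] (A : Rep k G) (n : ℕ) (hn : n = 1 ∨ n = 2)
    (h : ∀ p : ℕ, p.Prime → ∃ S : Subgroup G, ¬ p ∣ S.index ∧
      Nat.card (groupCohomology (res S.subtype A) n) ∣ Nat.card S) :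
    Nat.card (groupCohomology A n) ∣ Nat.card G := by
  classical
  have hN : Nat.card G ≠ 0 := Nat.card_pos.ne'
  -- the chosen subgroups and restriction maps
  choose! S hS hcard using h
  set r : ∀ p : ℕ, groupCohomology A n →ₗ[k] groupCohomology (res (S p).subtype A) n :=
    fun p => (map (S p).subtype (𝟙 (res (S p).subtype A)) n).hom with hr
  have hfin : ∀ p : ℕ, p.Prime → Finite (groupCohomology (res (S p).subtype A) n) := by
    intro p hp
    apply Nat.finite_of_card_ne_zero
    intro h0
    have := hcard p hp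
    rw [h0, zero_dvd_iff] at this
    exact (Nat.card_pos (α := S p)).ne' this
  have hker : ∀ p : ℕ, p.Prime → ∀ x : groupCohomology A n, r p x = 0 → (S p).index • x = 0 :=
    fun p _ x hx => index_smul_eq_zero_of_res_eq_zero A (S p) n hn x hx
  -- finiteness of `Hⁿ(G, A)`
  have hinj : Function.Injective
      (fun (x : groupCohomology A n) (p : (Nat.card G).primeFactors) => r p.1 x) := by
    intro x y hxy
    rw [← sub_eq_zero]
    by_contra hne
    have h1 : addOrderOf (x - y) ≠ 1 := fun h1 => hne (AddMonoid.addOrderOf_eq_one_iff.mp h1)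
    obtain ⟨q, hq, hqx⟩ := Nat.exists_prime_and_dvd h1
    have h2 : addOrderOf (x - y) ∣ Nat.card G :=
      addOrderOf_dvd_iff_nsmul_eq_zero.mpr (card_smul_eq_zero A n hn (x - y))
    have hqN : q ∈ (Nat.card G).primeFactors :=
      Nat.mem_primeFactors.mpr ⟨hq, hqx.trans h2, hN⟩
    have h3 : r q (x - y) = 0 := by
      have := congrFun hxy ⟨q, hqN⟩
      simp only at this
      rw [map_sub, this, sub_self]
    have h4 := hker q hq (x - y) h3
    rw [← addOrderOf_dvd_iff_nsmul_eq_zero] at h4
    exact hS q hq (hqx.trans h4)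
  haveI : ∀ p : (Nat.card G).primeFactors,
      Finite (groupCohomology (res (S p.1).subtype A) n) :=
    fun p => hfin p.1 (Nat.prime_of_mem_primeFactors p.2)
  haveI : Finite (groupCohomology A n) := Finite.of_injective _ hinj
  have hM : Nat.card (groupCohomology A n) ≠ 0 := Nat.card_pos.ne'
  rw [← Nat.factorization_prime_le_iff_dvd hM hN]
  intro p hp
  haveI : Fact p.Prime := ⟨hp⟩
  rw [← hp.pow_dvd_iff_le_factorization hN]
  -- a Sylow `p`-subgroup of `Hⁿ(G, A)` embeds into `Hⁿ(S p, A)`
  obtain ⟨P⟩ : Nonempty (Sylow p (Multiplicative (groupCohomology A n))) := inferInstance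
  have hPcard := Sylow.card_eq_multiplicity P
  rw [Nat.card_congr (Multiplicative.toAdd : Multiplicative (groupCohomology A n) ≃ _)] at hPcard
  rw [← hPcard]
  set φ : (P : Subgroup (Multiplicative (groupCohomology A n))) →*
      Multiplicative (groupCohomology (res (S p).subtype A) n) :=
    ((r p).toAddMonoidHom.toMultiplicative).comp
      (P : Subgroup (Multiplicative (groupCohomology A n))).subtype with hφ
  have hφinj : Function.Injective φ := by
    rw [injective_iff_map_eq_one]
    intro x hx
    obtain ⟨j, hj⟩ := P.isPGroup' x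
    have e1 : r p (Multiplicative.toAdd (x : Multiplicative (groupCohomology A n))) = 0 := hx
    have e2 := hker p hp _ e1
    have e3 : (p ^ j) • Multiplicative.toAdd (x : Multiplicative (groupCohomology A n)) = 0 := by
      have := congrArg (fun y : (P : Subgroup (Multiplicative (groupCohomology A n))) =>
        Multiplicative.toAdd (y : Multiplicative (groupCohomology A n))) hj
      simpa using this
    have hcop : Nat.Coprime (p ^ j) (S p).index :=
      Nat.Coprime.pow_left j ((Nat.Prime.coprime_iff_not_dvd hp).mpr (hS p hp))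
    have e4 := eq_zero_of_coprime_nsmul hcop e3 e2
    apply Subtype.ext
    exact e4
  have h5 : Nat.card (P : Subgroup (Multiplicative (groupCohomology A n))) ∣
      Nat.card (Multiplicative (groupCohomology (res (S p).subtype A) n)) :=
    Subgroup.card_dvd_of_injective φ hφinj
  rw [Nat.card_congr (Multiplicative.toAdd :
    Multiplicative (groupCohomology (res (S p).subtype A) n) ≃ _)] at h5
  exact h5.trans ((hcard p hp).trans (Subgroup.card_subgroup_dvd_card (S p)))

end Fermat.Agent.S55.H80
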