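/-
S55 (Program C), package C3/C1 (helper80): basic facts on the cyclic index `cycIdx` and the
cyclic 2-cochain `cycFun` of helper66's `CycDefs`; the cocycle property (carry identity).
-/
import Mathlib
import Fermat.Agent.S55.H66.CycDefs

set_option autoImplicit false

noncomputable section

namespace Fermat.Agent.S55.H80

open CategoryTheory groupCohomology Rep
open Fermat.Agent.S55.H66

section Idx

variable {G : Type} [Group G]

theorem exists_pow_eq_of_generates [Finite G] {σ : G} (hσ : ∀ g : G, g ∈ Subgroup.zpowers σ)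
    (g : G) : ∃ i : ℕ, σ ^ i = g := by
  have h := (mem_powers_iff_mem_zpowers (x := σ) (y := g)).mpr (hσ g)
  obtain ⟨i, hi⟩ := h
  exact ⟨i, hi⟩

theorem cycIdx_spec' {σ g : G} (h : ∃ i : ℕ, σ ^ i = g) : σ ^ cycIdx σ g = g := by
  classical
  unfold cycIdx
  rw [dif_pos h]
  exact Nat.find_spec h

theorem cycIdx_le {σ g : G} {i : ℕ} (h : σ ^ i = g) : cycIdx σ g ≤ i := by
  classical
  unfold cycIdx
  rw [dif_pos ⟨i, h⟩]
  exact Nat.find_min' _ h

theorem cycIdx_spec [Finite G] {σ : G} (hσ : ∀ g : G, g ∈ Subgroup.zpowers σ) (g : G) :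
    σ ^ cycIdx σ g = g :=
  cycIdx_spec' (exists_pow_eq_of_generates hσ g)

theorem cycIdx_lt [Finite G] {σ : G} (hσ : ∀ g : G, g ∈ Subgroup.zpowers σ) (g : G) :
    cycIdx σ g < orderOf σ := by
  obtain ⟨i, hi⟩ := exists_pow_eq_of_generates hσ g
  have h1 : σ ^ (i % orderOf σ) = g := by rw [pow_mod_orderOf, hi]
  exact lt_of_le_of_lt (cycIdx_le h1) (Nat.mod_lt _ (orderOf_pos σ))

theorem cycIdx_pow {σ : G} {i : ℕ} (hi : i < orderOf σ) : cycIdx σ (σ ^ i) = i := by
  have h1 : cycIdx σ (σ ^ i) ≤ i := cycIdx_le rfl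
  have h2 : σ ^ cycIdx σ (σ ^ i) = σ ^ i := cycIdx_spec' ⟨i, rfl⟩
  exact pow_injOn_Iio_orderOf (lt_of_le_of_lt h1 hi) hi h2

theorem cycIdx_pow_mod [Finite G] (σ : G) (i : ℕ) :
    cycIdx σ (σ ^ i) = i % orderOf σ := by
  rw [← pow_mod_orderOf]
  exact cycIdx_pow (Nat.mod_lt _ (orderOf_pos σ))

theorem cycIdx_mul [Finite G] {σ : G} (hσ : ∀ g : G, g ∈ Subgroup.zpowers σ) (g h : G) :
    cycIdx σ (g * h) = (cycIdx σ g + cycIdx σ h) % orderOf σ := by
  have h1 : g * h = σ ^ (cycIdx σ g + cycIdx σ h) := by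
    rw [pow_add, cycIdx_spec hσ g, cycIdx_spec hσ h]
  rw [h1, cycIdx_pow_mod]

/-- Reduction mod `n` of a number `< 2 n`. -/
theorem mod_of_lt_two_mul {x n : ℕ} (hx : x < 2 * n) :
    x % n = if x < n then x else x - n := by
  split_ifs with h
  · exact Nat.mod_eq_of_lt h
  · rw [Nat.mod_eq_sub_mod (not_lt.mp h)]
    exact Nat.mod_eq_of_lt (by omega)

end Idx

section Cocycle

variable {k G : Type} [CommRing k] [Group G] (A : Rep.{0, 0, 0} k G)

theorem cycFun_apply (σ : G) (a : A) (g h : G) :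
    cycFun A σ a (g, h) = if orderOf σ ≤ cycIdx σ g + cycIdx σ h then a else 0 := rfl

/-- CY1 (own copy): `cycFun A σ a` is a 2-cocycle when `σ` generates `G` and `a` is
invariant. -/
theorem cycFun_mem_cocycles₂ [Finite G] (σ : G) (hσ : ∀ g : G, g ∈ Subgroup.zpowers σ) (a : A)
    (ha : ∀ g : G, A.ρ g a = a) : cycFun A σ a ∈ cocycles₂ A := by
  rw [mem_cocycles₂_iff]
  intro g h j
  have hg := cycIdx_lt hσ g
  have hh := cycIdx_lt hσ h
  have hj := cycIdx_lt hσ j
  simp only [cycFun_apply, cycIdx_mul hσ]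
  rw [mod_of_lt_two_mul (show cycIdx σ g + cycIdx σ h < 2 * orderOf σ by omega),
    mod_of_lt_two_mul (show cycIdx σ h + cycIdx σ j < 2 * orderOf σ by omega)]
  have hρ : ∀ (c : Prop) [Decidable c], A.ρ g (if c then a else 0) = if c then a else 0 := by
    intro c _
    split_ifs
    · exact ha g
    · exact map_zero _
  rw [hρ]
  generalize cycIdx σ g = x at *
  generalize cycIdx σ h = y at *
  generalize cycIdx σ j = z at *
  generalize orderOf σ = n at *
  split_ifs <;> first | (exfalso; omega) | abel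

theorem cycClass_eq (σ : G) (a : A) (h : cycFun A σ a ∈ cocycles₂ A) :
    cycClass A σ a = H2π A ⟨cycFun A σ a, h⟩ := by
  classical
  unfold cycClass
  rw [dif_pos h]

end Cocycle

end Fermat.Agent.S55.H80
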