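/-
S55 (Program C), package C3/C1 (helper80): leaf CY6 `LeafCycRes` of helper66's `CycDefs` —
restriction of a cyclic class to a subgroup is the cyclic class of the subgroup.
-/
import Fermat.Agent.S55.H80.CycBasic

set_option autoImplicit false

noncomputable section

namespace Fermat.Agent.S55.H80

open CategoryTheory groupCohomology Rep
open Fermat.Agent.S55.H66

/-- Invariants are mapped to invariants. -/
theorem hom_invariant {k G G' : Type} [CommRing k] [Group G] [Group G']
    {A : Rep.{0, 0, 0} k G} {A' : Rep.{0, 0, 0} k G'} (φ : G' →* G) (f : res φ A ⟶ A')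
    {a : A} (ha : ∀ g : G, A.ρ g a = a) (g : G') : A'.ρ g (f.hom a) = f.hom a := by
  have h1 : A'.ρ g (f.hom a) = f.hom (A.ρ (φ g) a) :=
    (Representation.IntertwiningMap.isIntertwining (res φ A).ρ A'.ρ (Hom.hom f) g a).symm
  rw [h1, ha]

/-- **CY6.** -/
theorem leafCycRes : LeafCycRes := by
  intro k G G' _ _ _ _ _ A A' φ f σ τ d hσ hτ hφ hφτ hd a ha
  have ha' : ∀ g : G', A'.ρ g (f.hom a) = f.hom a := hom_invariant φ f ha
  have hc := cycFun_mem_cocycles₂ A σ hσ a ha
  have hc' := cycFun_mem_cocycles₂ A' τ hτ (f.hom a) ha'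
  rw [cycClass_eq A σ a hc, cycClass_eq A' τ _ hc']
  refine (H2π_comp_map_apply φ f ⟨_, hc⟩).trans ?_
  congr 1
  apply cocycles₂_ext
  intro g h
  show f.hom (cycFun A σ a (φ g, φ h)) = cycFun A' τ (f.hom a) (g, h)
  have hn : 0 < orderOf σ := orderOf_pos σ
  have hd0 : 0 < d := by
    rcases Nat.eq_zero_or_pos d with h0 | h0
    · rw [h0, zero_mul] at hd
      omega
    · exact h0
  have key : ∀ x : G', cycIdx σ (φ x) = d * cycIdx τ x := by
    intro x
    have h1 : φ x = σ ^ (d * cycIdx τ x) := by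
      conv_lhs => rw [← cycIdx_spec hτ x]
      rw [map_pow, hφτ, ← pow_mul]
    have h2 : d * cycIdx τ x < orderOf σ := by
      rw [← hd]
      exact Nat.mul_lt_mul_of_pos_left (cycIdx_lt hτ x) hd0
    rw [h1]
    exact cycIdx_pow h2
  rw [cycFun_apply, cycFun_apply, key g, key h, ← hd, ← Nat.mul_add]
  have hiff : d * orderOf τ ≤ d * (cycIdx τ g + cycIdx τ h) ↔
      orderOf τ ≤ cycIdx τ g + cycIdx τ h := Nat.mul_le_mul_left_iff hd0
  by_cases hc2 : orderOf τ ≤ cycIdx τ g + cycIdx τ h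
  · rw [if_pos (hiff.mpr hc2), if_pos hc2]
  · rw [if_neg (mt hiff.mp hc2), if_neg hc2, map_zero]

end Fermat.Agent.S55.H80
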