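/-
S55 (Program C), package C3/C1 (helper80): leaf CY7 `LeafCycInf` of helper66's `CycDefs` —
inflation of a cyclic class along a surjection of cyclic groups.
-/
import Fermat.Agent.S55.H80.CycRes

set_option autoImplicit false

noncomputable section

namespace Fermat.Agent.S55.H80

open CategoryTheory groupCohomology Rep
open Fermat.Agent.S55.H66

/-- The carry identity behind inflation. -/
theorem carry_inf {n d i j : ℕ} (hn : 0 < n) (hi : i < d * n) (hj : j < d * n) :
    i / n + j / n + (if n ≤ i % n + j % n then 1 else 0)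
      = ((i + j) % (d * n)) / n + (if d * n ≤ i + j then d else 0) := by
  rw [← Nat.add_div hn]
  by_cases hw : d * n ≤ i + j
  · rw [if_pos hw]
    have h1 : (i + j) % (d * n) = i + j - d * n := by
      rw [Nat.mod_eq_sub_mod hw]
      exact Nat.mod_eq_of_lt (by omega)
    rw [h1, ← Nat.add_mul_div_right _ _ hn]
    congr 1
    omega
  · rw [if_neg hw, Nat.mod_eq_of_lt (not_le.mp hw), add_zero]

/-- **CY7.** -/
theorem leafCycInf : LeafCycInf := by
  intro k G G' _ _ _ _ _ A A' φ f σ τ d hσ hτ hφτ hord a ha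
  have he' : ∀ g : G', A'.ρ g (f.hom a) = f.hom a := hom_invariant φ f ha
  have hde : ∀ g : G', A'.ρ g (d • f.hom a) = d • f.hom a := fun g => by
    rw [map_nsmul, he']
  have hc := cycFun_mem_cocycles₂ A σ hσ a ha
  have hc' := cycFun_mem_cocycles₂ A' τ hτ (d • f.hom a) hde
  rw [cycClass_eq A σ a hc, cycClass_eq A' τ _ hc']
  refine (H2π_comp_map_apply φ f ⟨_, hc⟩).trans ?_
  rw [H2π_eq_iff]
  have hn0 : 0 < orderOf σ := orderOf_pos σ
  refine ⟨fun g => -((cycIdx τ g / orderOf σ) • f.hom a), funext fun x => ?_⟩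
  obtain ⟨g, h⟩ := x
  have hi : cycIdx τ g < d * orderOf σ := hord ▸ cycIdx_lt hτ g
  have hj : cycIdx τ h < d * orderOf σ := hord ▸ cycIdx_lt hτ h
  have key : ∀ x : G', cycIdx σ (φ x) = cycIdx τ x % orderOf σ := by
    intro x
    have h1 : φ x = σ ^ cycIdx τ x := by
      conv_lhs => rw [← cycIdx_spec hτ x]
      rw [map_pow, hφτ]
    rw [h1]
    exact cycIdx_pow_mod σ _
  have hmul : cycIdx τ (g * h) = (cycIdx τ g + cycIdx τ h) % (d * orderOf σ) := by
    rw [cycIdx_mul hτ, hord]
  have hk := congrArg (fun t : ℕ => t • f.hom a) (carry_inf hn0 hi hj)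
  simp only [add_smul, ite_smul, one_smul, zero_smul] at hk
  have hρ : ∀ y : A', (∀ g : G', A'.ρ g y = y) → ∀ (q : ℕ), A'.ρ g (-(q • y)) = -(q • y) := by
    intro y hy q
    rw [map_neg, map_nsmul, hy]
  show A'.ρ g (-((cycIdx τ h / orderOf σ) • f.hom a))
      - -((cycIdx τ (g * h) / orderOf σ) • f.hom a) + -((cycIdx τ g / orderOf σ) • f.hom a)
    = f.hom (cycFun A σ a (φ g, φ h)) - cycFun A' τ (d • f.hom a) (g, h)
  rw [hρ _ he', hmul, cycFun_apply, cycFun_apply, key g, key h, hord]
  have e1 : f.hom (if orderOf σ ≤ cycIdx τ g % orderOf σ + cycIdx τ h % orderOf σ then a else 0)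
      = if orderOf σ ≤ cycIdx τ g % orderOf σ + cycIdx τ h % orderOf σ then f.hom a else 0 := by
    split_ifs
    · rfl
    · exact map_zero _
  rw [e1]
  have hk' : ((cycIdx τ g + cycIdx τ h) % (d * orderOf σ) / orderOf σ) • f.hom a
      = (cycIdx τ g / orderOf σ) • f.hom a + (cycIdx τ h / orderOf σ) • f.hom a
        + (if orderOf σ ≤ cycIdx τ g % orderOf σ + cycIdx τ h % orderOf σ then f.hom a else 0)
        - (if d * orderOf σ ≤ cycIdx τ g + cycIdx τ h then d • f.hom a else 0) := by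
    rw [eq_sub_iff_add_eq]
    exact hk.symm
  rw [hk']
  abel

end Fermat.Agent.S55.H80
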