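/-
S55 (Program C), package C4, leaf M2 (helper80): the purely representation-theoretic closure
principle behind `H26.CoresSurjLeaf` (no cohomology, Mathlib only).

Let `U ≤ H ≤ G`, `U` normal, `H ⧸ U` a `p`-group (every element of `H` has a `p`-power in `U`),
`[G : H]` finite and invertible in the finite field `k` of characteristic `p`.  A class `P` of
`k`-linear representations of `G` which contains `k[G ⧸ H]`, is closed under extensions whose
middle term is fixed pointwise by `U`, and is closed under retracts, contains every
finite-dimensional representation fixed pointwise by `U`.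

(Proof: `K` is a retract of `Fun(G ⧸ H, K)` by averaging; `Fun(G ⧸ H, K)` is filtered by the
`Fun_N = {φ | φ (g H) ∈ g N}`, `N ≤ K` an `H`-stable subspace, with graded pieces `k[G ⧸ H]`,
by induction on `dim N` along an `H`-invariant functional on `N`, which exists because a
`p`-group acting linearly on a nonzero finite `𝔽_p`-vector space has a nonzero fixed vector.)
-/
import Mathlib

set_option autoImplicit false

open CategoryTheory

namespace Fermat.Agent.S55.H80

/-- **The closure principle** (statement). -/
def ClosureStatement : Prop :=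
  ∀ (G : Type) [Group G] (k : Type) [Field k] [Finite k] (p : ℕ) [Fact p.Prime] [CharP k p]
    (U H : Subgroup G), U.Normal → U ≤ H → H.FiniteIndex →
    (∀ h ∈ H, ∃ j : ℕ, h ^ p ^ j ∈ U) → ((H.index : k) ≠ 0) →
    ∀ P : Rep.{0} k G → Prop,
      P (Rep.ofMulAction k G (G ⧸ H)) →
      (∀ X : ShortComplex (Rep.{0} k G), X.ShortExact →
        (∀ m : X.X₂, ∀ s ∈ U, X.X₂.ρ s m = m) → P X.X₁ → P X.X₃ → P X.X₂) →
      (∀ (A B : Rep.{0} k G) (i : A ⟶ B) (r : B ⟶ A), i ≫ r = 𝟙 A → P B → P A) →
      ∀ K : Rep.{0} k G, Module.Finite k K → (∀ m : K, ∀ s ∈ U, K.ρ s m = m) → P K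

end Fermat.Agent.S55.H80
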