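/-
S55 (Program C), package C4, leaf M2 (helper80): fixed vectors and invariant functionals for
"virtual `p`-groups" acting on finite vector spaces of characteristic `p` (Mathlib only).
-/
import Mathlib

set_option autoImplicit false

namespace Fermat.Agent.S55.H80

open MulAction

/-- A group all of whose elements have a `p`-power acting trivially, acting linearly on a
nontrivial finite-dimensional vector space over a finite field of characteristic `p`, has a
nonzero fixed vector. -/
theorem exists_fixed_vector {H k V : Type} [Group H] [Field k] [Finite k] (p : ℕ) [Fact p.Prime]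
    [CharP k p] [AddCommGroup V] [Module k V] [Module.Finite k V] [Nontrivial V]
    (ρ : Representation k H V) (hρ : ∀ h : H, ∃ j : ℕ, ρ (h ^ p ^ j) = 1) :
    ∃ v : V, v ≠ 0 ∧ ∀ h : H, ρ h v = v := by
  classical
  have : Finite V := Module.finite_of_finite k
  letI : MulAction H V := MulAction.compHom V (ρ : H →* Module.End k V)
  have hsmul : ∀ (h : H) (v : V), h • v = ρ h v := fun _ _ => rfl
  let P : Subgroup (Equiv.Perm V) := (MulAction.toPermHom H V).range
  have hP : IsPGroup p P := by
    rintro ⟨σ, h, rfl⟩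
    obtain ⟨j, hj⟩ := hρ h
    refine ⟨j, Subtype.ext ?_⟩
    show (MulAction.toPermHom H V h) ^ p ^ j = 1
    rw [← map_pow]
    ext v
    show (h ^ p ^ j) • v = v
    rw [hsmul, hj]
    rfl
  have hcard : p ∣ Nat.card V := by
    obtain ⟨v, hv⟩ := exists_ne (0 : V)
    have h1 : p • v = 0 := by
      rw [← Nat.cast_smul_eq_nsmul k, CharP.cast_eq_zero k p, zero_smul]
    have h2 : addOrderOf v ∣ p := addOrderOf_dvd_of_nsmul_eq_zero h1
    have h3 : addOrderOf v = p := by
      rcases (Nat.dvd_prime (Fact.out : p.Prime)).mp h2 with h | h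
      · exact absurd (AddMonoid.addOrderOf_eq_one_iff.mp h) hv
      · exact h
    rw [← h3]
    exact addOrderOf_dvd_natCard v
  have h0 : (0 : V) ∈ fixedPoints P V := by
    rintro ⟨σ, h, rfl⟩
    show h • (0 : V) = 0
    rw [hsmul, map_zero]
  obtain ⟨b, hb, hb0⟩ := hP.exists_fixed_point_of_prime_dvd_card_of_fixed_point V hcard h0
  refine ⟨b, fun h => hb0 h.symm, fun h => ?_⟩
  exact hb ⟨MulAction.toPermHom H V h, h, rfl⟩

/-- The invariant functional: under the same hypotheses there is a nonzero linear form `l` with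
`l ∘ ρ h = l` for all `h`. -/
theorem exists_invariant_functional {H k N : Type} [Group H] [Field k] [Finite k] (p : ℕ)
    [Fact p.Prime] [CharP k p] [AddCommGroup N] [Module k N] [Module.Finite k N] [Nontrivial N]
    (ρ : Representation k H N) (hρ : ∀ h : H, ∃ j : ℕ, ρ (h ^ p ^ j) = 1) :
    ∃ l : N →ₗ[k] k, l ≠ 0 ∧ ∀ h : H, l ∘ₗ ρ h = l := by
  have hρ' : ∀ h : H, ∃ j : ℕ, (Representation.dual ρ) (h ^ p ^ j) = 1 := by
    intro h
    obtain ⟨j, hj⟩ := hρ h
    refine ⟨j, ?_⟩
    have h1 : ρ (h ^ p ^ j)⁻¹ = 1 := by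
      have h2 : ρ (h ^ p ^ j)⁻¹ * ρ (h ^ p ^ j) = 1 := by
        rw [← map_mul, inv_mul_cancel, map_one]
      rwa [hj, mul_one] at h2
    rw [Representation.dual_apply, h1]
    ext f v
    rfl
  obtain ⟨l, hl0, hl⟩ := exists_fixed_vector p (Representation.dual ρ) hρ'
  refine ⟨l, hl0, fun h => ?_⟩
  have := hl h⁻¹
  rw [Representation.dual_apply, inv_inv] at this
  exact this

end Fermat.Agent.S55.H80
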