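/-
S55 (Program C), package C4, leaf M2 (helper80): proof of the closure principle
`ClosureStatement` by the explicit untwisted induced module
`Ind(N) = {ψ : G → K | ψ (g h) = h⁻¹ ψ g, ψ g ∈ N}` (left translation), `N ≤ K` an `H`-stable
subspace:
* step: `0 → Ind(N ⊓ ker l) → Ind(N) → k[G ⧸ H] → 0` for an `H`-invariant linear form `l` on `N`;
* `K` is a retract of `Ind(K)` by averaging over `G ⧸ H`;
* induction on `finrank N` with `exists_invariant_functional`.
-/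
import Mathlib
import Fermat.Agent.S55.H80.CoresSurjSpec
import Fermat.Agent.S55.H80.InvFunctional

set_option autoImplicit false

open CategoryTheory

noncomputable section

namespace Fermat.Agent.S55.H80

variable {G : Type} [Group G] {k : Type} [Field k]

/-- Left translation on functions `G → V`. -/
def transRep (k : Type) [Field k] (G : Type) [Group G] (V : Type) [AddCommGroup V] [Module k V] :
    Representation k G (G → V) where
  toFun g₀ :=
    { toFun := fun ψ g => ψ (g₀⁻¹ * g)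
      map_add' := fun _ _ => rfl
      map_smul' := fun _ _ => rfl }
  map_one' := LinearMap.ext fun ψ => funext fun g => by
    show ψ (1⁻¹ * g) = ψ g
    rw [inv_one, one_mul]
  map_mul' a b := LinearMap.ext fun ψ => funext fun g => by
    show ψ ((a * b)⁻¹ * g) = ψ (b⁻¹ * (a⁻¹ * g))
    rw [mul_inv_rev, mul_assoc]

theorem transRep_apply {V : Type} [AddCommGroup V] [Module k V] (g₀ : G) (ψ : G → V) (g : G) :
    transRep k G V g₀ ψ g = ψ (g₀⁻¹ * g) := rfl

variable (K : Rep.{0} k G) (H : Subgroup G)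

/-- The induced module of an `H`-stable subspace `N ≤ K`, inside `G → K`:
the functions `ψ` with `ψ (g h) = h⁻¹ ψ g` for `h ∈ H` and values in `N`. -/
def indSub (N : Submodule k K) : Submodule k (G → K) where
  carrier := {ψ | (∀ g : G, ∀ h ∈ H, ψ (g * h) = K.ρ h⁻¹ (ψ g)) ∧ ∀ g, ψ g ∈ N}
  add_mem' := by
    rintro ψ ψ' ⟨h1, h2⟩ ⟨h1', h2'⟩
    exact ⟨fun g h hh => by simp only [Pi.add_apply, h1 g h hh, h1' g h hh, map_add],
      fun g => N.add_mem (h2 g) (h2' g)⟩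
  zero_mem' := ⟨fun g h _ => by simp, fun g => N.zero_mem⟩
  smul_mem' := by
    rintro c ψ ⟨h1, h2⟩
    exact ⟨fun g h hh => by simp only [Pi.smul_apply, h1 g h hh, map_smul],
      fun g => N.smul_mem c (h2 g)⟩

theorem mem_indSub {N : Submodule k K} {ψ : G → K} :
    ψ ∈ indSub K H N ↔ (∀ g : G, ∀ h ∈ H, ψ (g * h) = K.ρ h⁻¹ (ψ g)) ∧ ∀ g, ψ g ∈ N := Iff.rfl

theorem indSub_le_comap (N : Submodule k K) (g₀ : G) :
    indSub K H N ≤ (indSub K H N).comap (transRep k G K g₀) := by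
  rintro ψ ⟨h1, h2⟩
  refine ⟨fun g h hh => ?_, fun g => h2 _⟩
  show ψ (g₀⁻¹ * (g * h)) = K.ρ h⁻¹ (ψ (g₀⁻¹ * g))
  rw [← mul_assoc]
  exact h1 _ h hh

/-- The induced representation `Ind(N)`. -/
def indRep (N : Submodule k K) : Rep.{0} k G :=
  Rep.of ((transRep k G K).subrepresentation (indSub K H N) (indSub_le_comap K H N))

theorem indRep_ρ_apply (N : Submodule k K) (g₀ : G) (ψ : indSub K H N) (g : G) :
    ((indRep K H N).ρ g₀ ψ : ↥(indSub K H N)).1 g = ψ.1 (g₀⁻¹ * g) := rfl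

/-- `Ind(N)` is fixed pointwise by a normal subgroup `U ≤ H` acting trivially on `K`. -/
theorem indRep_fixed {U : Subgroup G} (hU : U.Normal) (hUH : U ≤ H)
    (hK : ∀ m : K, ∀ s ∈ U, K.ρ s m = m) (N : Submodule k K) :
    ∀ ψ : indRep K H N, ∀ s ∈ U, (indRep K H N).ρ s ψ = ψ := by
  intro ψ s hs
  refine Subtype.ext (funext fun g => ?_)
  show (ψ : indSub K H N).1 (s⁻¹ * g) = (ψ : indSub K H N).1 g
  have h1 : g⁻¹ * s⁻¹ * g ∈ U := by
    have := hU.conj_mem s⁻¹ (U.inv_mem hs) g⁻¹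
    simpa using this
  have e : s⁻¹ * g = g * (g⁻¹ * s⁻¹ * g) := by group
  rw [e, (ψ : indSub K H N).2.1 g _ (hUH h1)]
  exact hK _ _ (U.inv_mem h1)


/-! ### The coefficient map -/

section Step

variable [Finite (G ⧸ H)]

/-- The coefficient map `(G → K) → k[G ⧸ H]`, `ψ ↦ Σ_x l (ψ x.out) [x]`. -/
def coeffLin (l : K →ₗ[k] k) : (G → K) →ₗ[k] MonoidAlgebra k (G ⧸ H) :=
  (MonoidAlgebra.coeffLinearEquiv k).symm.toLinearMap ∘ₗ
    (Finsupp.linearEquivFunOnFinite k k (G ⧸ H)).symm.toLinearMap ∘ₗ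
      LinearMap.pi fun x : G ⧸ H => l ∘ₗ LinearMap.proj (R := k) (φ := fun _ : G => K) x.out

theorem coeffLin_coeff (l : K →ₗ[k] k) (ψ : G → K) (x : G ⧸ H) :
    (coeffLin K H l ψ).coeff x = l (ψ x.out) := rfl

variable {K H}

omit [Finite (G ⧸ H)] in
/-- For `ψ ∈ Ind(N)` and `l` an `H`-invariant form on `N`, `g ↦ l (ψ g)` is a function on
`G ⧸ H`. -/
theorem l_congr {N : Submodule k K} {l : K →ₗ[k] k}
    (hl : ∀ h ∈ H, ∀ n ∈ N, l (K.ρ h n) = l n) {ψ : G → K} (hψ : ψ ∈ indSub K H N) {a b : G}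
    (hab : (a : G ⧸ H) = (b : G ⧸ H)) : l (ψ a) = l (ψ b) := by
  have h1 : a⁻¹ * b ∈ H := QuotientGroup.eq.mp hab
  have e : b = a * (a⁻¹ * b) := by group
  rw [e, hψ.1 a _ h1, hl _ (H.inv_mem h1) _ (hψ.2 a)]

theorem coeffLin_equivariant {N : Submodule k K} {l : K →ₗ[k] k}
    (hl : ∀ h ∈ H, ∀ n ∈ N, l (K.ρ h n) = l n) (g₀ : G) {ψ : G → K}
    (hψ : ψ ∈ indSub K H N) :
    coeffLin K H l (transRep k G K g₀ ψ) =
      Representation.ofMulAction k G (G ⧸ H) g₀ (coeffLin K H l ψ) := by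
  apply MonoidAlgebra.coeff_injective
  ext x
  rw [coeffLin_coeff, Representation.coeff_ofMulAction, coeffLin_coeff, transRep_apply]
  apply l_congr hl hψ
  rw [QuotientGroup.out_eq']
  conv_rhs => rw [← QuotientGroup.out_eq' x]
  rfl

theorem coeffLin_eq_zero_iff {N : Submodule k K} {l : K →ₗ[k] k}
    (hl : ∀ h ∈ H, ∀ n ∈ N, l (K.ρ h n) = l n) {ψ : G → K} (hψ : ψ ∈ indSub K H N) :
    coeffLin K H l ψ = 0 ↔ ψ ∈ indSub K H (N ⊓ LinearMap.ker l) := by
  constructor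
  · intro h0
    refine ⟨hψ.1, fun g => ⟨hψ.2 g, ?_⟩⟩
    have h1 : (coeffLin K H l ψ).coeff (g : G ⧸ H) = 0 := by rw [h0]; rfl
    rw [coeffLin_coeff] at h1
    show l (ψ g) = 0
    rw [← h1]
    exact l_congr hl hψ (QuotientGroup.out_eq' _).symm
  · intro h
    apply MonoidAlgebra.coeff_injective
    ext x
    rw [coeffLin_coeff]
    exact (h.2 _).2

theorem coeffLin_surjective {N : Submodule k K} {l : K →ₗ[k] k}
    (hN : ∀ h ∈ H, ∀ n ∈ N, K.ρ h n ∈ N)
    (hl : ∀ h ∈ H, ∀ n ∈ N, l (K.ρ h n) = l n) {n₀ : K} (hn₀ : n₀ ∈ N) (hl₀ : l n₀ = 1)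
    (y : MonoidAlgebra k (G ⧸ H)) : ∃ ψ ∈ indSub K H N, coeffLin K H l ψ = y := by
  have hout : ∀ g : G, g⁻¹ * ((g : G ⧸ H)).out ∈ H := fun g =>
    QuotientGroup.eq.mp (QuotientGroup.out_eq' _).symm
  refine ⟨fun g => y.coeff (g : G ⧸ H) • K.ρ (g⁻¹ * ((g : G ⧸ H)).out) n₀, ⟨fun g h hh => ?_,
    fun g => N.smul_mem _ (hN _ (hout g) _ hn₀)⟩, ?_⟩
  · have e : ((g * h : G) : G ⧸ H) = (g : G ⧸ H) := by
      rw [QuotientGroup.eq]
      have : (g * h)⁻¹ * g = h⁻¹ := by group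
      rw [this]
      exact H.inv_mem hh
    show y.coeff ((g * h : G) : G ⧸ H) • K.ρ ((g * h)⁻¹ * (((g * h : G) : G ⧸ H)).out) n₀ =
      K.ρ h⁻¹ (y.coeff (g : G ⧸ H) • K.ρ (g⁻¹ * ((g : G ⧸ H)).out) n₀)
    rw [e, map_smul, ← Module.End.mul_apply, ← map_mul]
    congr 3
    group
  · apply MonoidAlgebra.coeff_injective
    ext x
    rw [coeffLin_coeff]
    show l (y.coeff ((x.out : G) : G ⧸ H) • K.ρ (x.out⁻¹ * (((x.out : G) : G ⧸ H)).out) n₀) =
      y.coeff x
    rw [map_smul, hl _ (hout _) _ hn₀, hl₀, smul_eq_mul, mul_one, QuotientGroup.out_eq']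

end Step


/-! ### The step short exact sequence -/

/-- Elementwise criterion for short exactness in `Rep k G`. -/
theorem shortExact_of_elementwise' (S : ShortComplex (Rep.{0} k G))
    (hf : Function.Injective S.f.hom) (hg : Function.Surjective S.g.hom)
    (hex : ∀ y : S.X₂.V, S.g.hom y = 0 → ∃ x : S.X₁.V, S.f.hom x = y) : S.ShortExact where
  exact := by
    rw [← ShortComplex.exact_map_iff_of_faithful S (forget₂ (Rep.{0} k G) (ModuleCat.{0} k)),
      ShortComplex.moduleCat_exact_iff]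
    exact hex
  mono_f := (Rep.mono_iff_injective _).2 hf
  epi_g := (Rep.epi_iff_surjective _).2 hg

theorem indSub_mono {N' N : Submodule k K} (h : N' ≤ N) : indSub K H N' ≤ indSub K H N :=
  fun _ hψ => ⟨hψ.1, fun g => h (hψ.2 g)⟩

/-- The inclusion `Ind(N') ⟶ Ind(N)` for `N' ≤ N`. -/
def indIncl {N' N : Submodule k K} (h : N' ≤ N) : indRep K H N' ⟶ indRep K H N :=
  Rep.ofHom (LinearMap.intertwiningMap_of_isIntertwiningMap _ _
    (Submodule.inclusion (indSub_mono K H h)) (fun _ _ => rfl))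

theorem indIncl_apply {N' N : Submodule k K} (h : N' ≤ N) (ψ : indSub K H N') :
    ((indIncl K H h).hom ψ : ↥(indSub K H N)).1 = ψ.1 := rfl

section SES

variable [Finite (G ⧸ H)] {N : Submodule k K} {l : K →ₗ[k] k}

/-- The coefficient morphism `Ind(N) ⟶ k[G ⧸ H]` of an `H`-invariant linear form on `N`. -/
def indCoeff (hl : ∀ h ∈ H, ∀ n ∈ N, l (K.ρ h n) = l n) :
    indRep K H N ⟶ Rep.ofMulAction k G (G ⧸ H) :=
  Rep.ofHom (LinearMap.intertwiningMap_of_isIntertwiningMap _ _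
    (coeffLin K H l ∘ₗ (indSub K H N).subtype) (fun g ψ => coeffLin_equivariant hl g ψ.2))

theorem indCoeff_apply (hl : ∀ h ∈ H, ∀ n ∈ N, l (K.ρ h n) = l n) (ψ : indSub K H N) :
    (indCoeff K H hl).hom ψ = coeffLin K H l ψ.1 := rfl

/-- The step: `0 → Ind(N ⊓ ker l) → Ind(N) → k[G ⧸ H] → 0`. -/
def stepSES (hl : ∀ h ∈ H, ∀ n ∈ N, l (K.ρ h n) = l n) : ShortComplex (Rep.{0} k G) :=
  ShortComplex.mk (indIncl K H (inf_le_left : N ⊓ LinearMap.ker l ≤ N)) (indCoeff K H hl) (by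
    refine Rep.hom_ext (Representation.IntertwiningMap.ext (LinearMap.ext fun ψ => ?_))
    show coeffLin K H l (ψ : indSub K H (N ⊓ LinearMap.ker l)).1 = 0
    exact (coeffLin_eq_zero_iff hl (indSub_mono K H inf_le_left ψ.2)).mpr ψ.2)

theorem stepSES_shortExact (hN : ∀ h ∈ H, ∀ n ∈ N, K.ρ h n ∈ N)
    (hl : ∀ h ∈ H, ∀ n ∈ N, l (K.ρ h n) = l n) {n₀ : K} (hn₀ : n₀ ∈ N) (hl₀ : l n₀ = 1) :
    (stepSES K H hl).ShortExact := by
  refine shortExact_of_elementwise' _ ?_ ?_ ?_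
  · intro a b hab
    have h1 : ((stepSES K H hl).f.hom a : ↥(indSub K H N)).1 =
        ((stepSES K H hl).f.hom b : ↥(indSub K H N)).1 := by rw [hab]
    exact Subtype.ext h1
  · intro y
    obtain ⟨ψ, hψ, hy⟩ := coeffLin_surjective hN hl hn₀ hl₀ y
    exact ⟨⟨ψ, hψ⟩, hy⟩
  · intro ψ hψ
    have h1 : coeffLin K H l (ψ : indSub K H N).1 = 0 := hψ
    exact ⟨⟨(ψ : indSub K H N).1, (coeffLin_eq_zero_iff hl (ψ : indSub K H N).2).mp h1⟩, rfl⟩

end SES


/-! ### `K` is a retract of `Ind(K)` -/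

/-- `K ⟶ Ind(K)`, `m ↦ (g ↦ g⁻¹ m)`. -/
def indOfK : K ⟶ indRep K H ⊤ :=
  ConcreteCategory.ofHom (C := Rep.{0} k G) (X := K) (Y := indRep K H ⊤)
    (LinearMap.intertwiningMap_of_isIntertwiningMap _ _
      { toFun := fun m => (⟨fun g => K.ρ g⁻¹ m, ⟨fun g h _ => by
            show K.ρ (g * h)⁻¹ m = K.ρ h⁻¹ (K.ρ g⁻¹ m)
            rw [mul_inv_rev, map_mul]
            rfl, fun _ => Submodule.mem_top⟩⟩ : indSub K H ⊤)
        map_add' := fun a b => Subtype.ext (funext fun g => map_add _ a b)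
        map_smul' := fun c a => Subtype.ext (funext fun g => map_smul _ c a) }
      (fun g₀ m => Subtype.ext (funext fun g => by
        show K.ρ g⁻¹ (K.ρ g₀ m) = K.ρ (g₀⁻¹ * g)⁻¹ m
        rw [mul_inv_rev, inv_inv, map_mul]
        rfl)))

theorem indOfK_apply (m : K) (g : G) :
    ((indOfK K H).hom m : ↥(indSub K H ⊤)).1 g = K.ρ g⁻¹ m := rfl

section Retract

variable [Fintype (G ⧸ H)]

/-- The weighted sum `ψ ↦ c • Σ_x x.out • ψ (x.out)`. -/
def avgLin (c : k) : (G → K) →ₗ[k] K :=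
  c • ∑ x : G ⧸ H, (K.ρ x.out : K →ₗ[k] K) ∘ₗ LinearMap.proj (R := k) (φ := fun _ : G => K) x.out

theorem avgLin_apply (c : k) (ψ : G → K) :
    avgLin K H c ψ = c • ∑ x : G ⧸ H, K.ρ x.out (ψ x.out) := by
  simp [avgLin, LinearMap.sum_apply]

variable {K H}

omit [Fintype (G ⧸ H)] in
/-- For `ψ ∈ Ind(K)`, `g ↦ g • ψ g` is a function on `G ⧸ H`. -/
theorem smul_congr {ψ : G → K} (hψ : ψ ∈ indSub K H ⊤) {a b : G}
    (hab : (a : G ⧸ H) = (b : G ⧸ H)) : K.ρ a (ψ a) = K.ρ b (ψ b) := by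
  have h1 : a⁻¹ * b ∈ H := QuotientGroup.eq.mp hab
  have e : b = a * (a⁻¹ * b) := by group
  have e2 : K.ρ b (ψ b) = K.ρ (a * (a⁻¹ * b)) (ψ (a * (a⁻¹ * b))) := by rw [← e]
  rw [e2, hψ.1 a _ h1, ← Module.End.mul_apply, ← map_mul]
  congr 2
  group

theorem avgLin_equivariant (c : k) (g₀ : G) {ψ : G → K} (hψ : ψ ∈ indSub K H ⊤) :
    avgLin K H c (transRep k G K g₀ ψ) = K.ρ g₀ (avgLin K H c ψ) := by
  rw [avgLin_apply, avgLin_apply, map_smul, map_sum]
  congr 1
  have h1 : ∀ x : G ⧸ H, K.ρ x.out (transRep k G K g₀ ψ x.out) =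
      K.ρ g₀ (K.ρ ((g₀⁻¹ • x).out) (ψ ((g₀⁻¹ • x).out))) := by
    intro x
    rw [transRep_apply]
    have h2 : K.ρ (g₀⁻¹ * x.out) (ψ (g₀⁻¹ * x.out)) =
        K.ρ ((g₀⁻¹ • x).out) (ψ ((g₀⁻¹ • x).out)) := by
      apply smul_congr hψ
      rw [QuotientGroup.out_eq']
      conv_rhs => rw [← QuotientGroup.out_eq' x]
      rfl
    rw [← h2, ← Module.End.mul_apply, ← map_mul, mul_inv_cancel_left]
  rw [Finset.sum_congr rfl fun x _ => h1 x]
  exact Equiv.sum_comp (MulAction.toPerm (g₀⁻¹ : G)) fun y : G ⧸ H => K.ρ g₀ (K.ρ y.out (ψ y.out))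

variable (K H)

/-- `Ind(K) ⟶ K`, `ψ ↦ c • Σ_x x.out • ψ (x.out)`. -/
def indToK (c : k) : indRep K H ⊤ ⟶ K :=
  ConcreteCategory.ofHom (C := Rep.{0} k G) (X := indRep K H ⊤) (Y := K)
    (LinearMap.intertwiningMap_of_isIntertwiningMap _ _
      (avgLin K H c ∘ₗ (indSub K H ⊤).subtype) (fun g ψ => avgLin_equivariant c g ψ.2))

theorem indOfK_comp_indToK (hidx : (H.index : k) ≠ 0) :
    indOfK K H ≫ indToK K H ((H.index : k))⁻¹ = 𝟙 K := by
  refine Rep.hom_ext (Representation.IntertwiningMap.ext (LinearMap.ext fun m => ?_))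
  show avgLin K H ((H.index : k))⁻¹ (fun g => K.ρ g⁻¹ m) = m
  rw [avgLin_apply]
  have h1 : ∀ x : G ⧸ H, K.ρ x.out (K.ρ x.out⁻¹ m) = m := fun x => by
    rw [← Module.End.mul_apply, ← map_mul, mul_inv_cancel, map_one]
    rfl
  rw [Finset.sum_congr rfl fun x _ => h1 x, Finset.sum_const, Finset.card_univ,
    ← Nat.cast_smul_eq_nsmul k, smul_smul]
  have h2 : Fintype.card (G ⧸ H) = H.index := by
    rw [Subgroup.index, Nat.card_eq_fintype_card]
  rw [h2, inv_mul_cancel₀ hidx, one_smul]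

end Retract


/-! ### The closure principle -/

/-- **The closure principle.** -/
theorem closure : ClosureStatement := by
  intro G _ k _ _ p _ _ U H hU hUH hHfin hpow hidx P hb he hs K hKfin hK
  let _ : Fintype (G ⧸ H) := Subgroup.fintypeQuotientOfFiniteIndex
  -- zero representations
  have hzero : ∀ Z : Rep.{0} k G, (∀ z : Z, z = 0) → P Z := fun Z hZ =>
    hs Z (Rep.ofMulAction k G (G ⧸ H)) 0 0
      (Rep.hom_ext (Representation.IntertwiningMap.ext
        (LinearMap.ext fun z => (hZ _).trans (hZ _).symm))) hb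
  have key : ∀ d : ℕ, ∀ N : Submodule k K, (∀ h ∈ H, ∀ n ∈ N, K.ρ h n ∈ N) →
      Module.finrank k N ≤ d → P (indRep K H N) := by
    intro d
    induction d with
    | zero =>
      intro N _ hd
      have hN0 : N = ⊥ := Submodule.finrank_eq_zero.mp (Nat.le_zero.mp hd)
      subst hN0
      refine hzero _ fun ψ => Subtype.ext (funext fun g => ?_)
      exact (Submodule.mem_bot k).mp ((ψ : indSub K H ⊥).2.2 g)
    | succ d ih =>
      intro N hN hd
      by_cases hbot : N = ⊥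
      · subst hbot
        refine hzero _ fun ψ => Subtype.ext (funext fun g => ?_)
        exact (Submodule.mem_bot k).mp ((ψ : indSub K H ⊥).2.2 g)
      · have : Nontrivial N := Submodule.nontrivial_iff_ne_bot.mpr hbot
        let ρN : Representation k H N :=
          Representation.subrepresentation (K.ρ.comp H.subtype : Representation k H K) N
            (fun h n hn => hN h h.2 n hn)
        have hρ : ∀ h : H, ∃ j : ℕ, ρN (h ^ p ^ j) = 1 := by
          intro h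
          obtain ⟨j, hj⟩ := hpow h h.2
          refine ⟨j, LinearMap.ext fun n => Subtype.ext ?_⟩
          show K.ρ ((h ^ p ^ j : H) : G) (n : K) = (n : K)
          rw [Subgroup.coe_pow]
          exact hK _ _ hj
        obtain ⟨l₀, hl0, hinv⟩ := exists_invariant_functional p ρN hρ
        obtain ⟨l, hl⟩ := LinearMap.exists_extend l₀
        have hlinv : ∀ h ∈ H, ∀ n ∈ N, l (K.ρ h n) = l n := by
          intro h hh n hn
          have h1 := congrArg (fun f : N →ₗ[k] k => f ⟨n, hn⟩) (hinv ⟨h, hh⟩)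
          rw [← hl] at h1
          exact h1
        obtain ⟨n₁, hn₁⟩ : ∃ n : N, l₀ n ≠ 0 := by
          by_contra hcon
          apply hl0
          ext n
          by_contra hn
          exact hcon ⟨n, hn⟩
        have hln₁ : l (n₁ : K) = l₀ n₁ := by
          rw [← hl]
          rfl
        have hn₀ : (l₀ n₁)⁻¹ • (n₁ : K) ∈ N := N.smul_mem _ n₁.2
        have hl₀ : l ((l₀ n₁)⁻¹ • (n₁ : K)) = 1 := by
          rw [map_smul, hln₁, smul_eq_mul, inv_mul_cancel₀ hn₁]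
        have hN' : ∀ h ∈ H, ∀ n ∈ N ⊓ LinearMap.ker l, K.ρ h n ∈ N ⊓ LinearMap.ker l := by
          rintro h hh n ⟨hn, hn0⟩
          refine ⟨hN h hh n hn, ?_⟩
          show l (K.ρ h n) = 0
          rw [hlinv h hh n hn]
          exact hn0
        have hlt : N ⊓ LinearMap.ker l < N := by
          refine lt_of_le_of_ne inf_le_left fun heq => ?_
          have h2 : (l₀ n₁)⁻¹ • (n₁ : K) ∈ N ⊓ LinearMap.ker l := by
            rw [heq]
            exact hn₀
          have h3 : l ((l₀ n₁)⁻¹ • (n₁ : K)) = 0 := h2.2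
          rw [hl₀] at h3
          exact one_ne_zero h3
        have hd' : Module.finrank k ↥(N ⊓ LinearMap.ker l) ≤ d := by
          have := Submodule.finrank_lt_finrank_of_lt hlt
          omega
        exact he (stepSES K H hlinv) (stepSES_shortExact K H hN hlinv hn₀ hl₀)
          (indRep_fixed K H hU hUH hK N) (ih _ hN' hd') hb
  have htop : P (indRep K H ⊤) :=
    key _ ⊤ (fun _ _ _ _ => Submodule.mem_top) le_rfl
  exact hs K (indRep K H ⊤) (indOfK K H) (indToK K H ((H.index : k))⁻¹)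
    (indOfK_comp_indToK K H hidx) htop

end Fermat.Agent.S55.H80
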