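/-
S55 (Program C), package C4, leaf M2 (helper80): the cohomological calculus of the spans
`genSpan D A U` of classes pushed forward along orbit maps from `H²(G, k[G ⧸ U])`:
functoriality, retracts, extensions.
-/
import Fermat.Agent.S55.H26.LocalInvSpec
import Fermat.Agent.S55.H99.LcElt
import Fermat.Agent.S55.H80.CoresSurjSpec

set_option autoImplicit false

open CategoryTheory

noncomputable section

namespace Fermat.Agent.S55.H80

open Fermat.Agent.S55.H49 Fermat.Agent.S55.H26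

variable {G : Type} [Group G] {k : Type} [Field k]

/-- The span of the classes pushed forward along orbit maps from `H²(G, k[G ⧸ U])`. -/
def genSpan (D : LevelDatum G) (A : Rep.{0} k G) (U : Subgroup G)
    (hA : ∀ m : A, ∀ s ∈ U, A.ρ s m = m) : Submodule k (Hlc D A 2) :=
  Submodule.span k (Set.range fun mz : A × Hlc D (permRep k U) 2 =>
    hlcMap D (orbitMap A U mz.1 (hA mz.1)) 2 mz.2)

theorem hom_fixed {A B : Rep.{0} k G} (f : A ⟶ B) {U : Subgroup G} {m : A}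
    (hm : ∀ s ∈ U, A.ρ s m = m) : ∀ s ∈ U, B.ρ s (f.hom m) = f.hom m := fun s hs => by
  rw [← Rep.hom_comm_apply, hm s hs]

/-- Orbit maps compose with morphisms. -/
theorem orbitMap_comp_hom {A B : Rep.{0} k G} (f : A ⟶ B) (U : Subgroup G) (m : A)
    (hm : ∀ s ∈ U, A.ρ s m = m) :
    orbitMap A U m hm ≫ f = orbitMap B U (f.hom m) (hom_fixed f hm) := by
  refine Rep.hom_ext (Representation.IntertwiningMap.ext ?_)
  refine MonoidAlgebra.lhom_ext' fun x => LinearMap.ext fun r => ?_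
  induction x using QuotientGroup.induction_on with
  | H a =>
    show f.hom ((orbitMap A U m hm).hom (MonoidAlgebra.single (a : G ⧸ U) r)) =
      (orbitMap B U (f.hom m) (hom_fixed f hm)).hom (MonoidAlgebra.single (a : G ⧸ U) r)
    rw [orbitMap, orbitMap, permHom_single, permHom_single, orbitFun_mk, orbitFun_mk, map_smul,
      Rep.hom_comm_apply]

theorem mem_genSpan (D : LevelDatum G) (A : Rep.{0} k G) (U : Subgroup G)
    (hA : ∀ m : A, ∀ s ∈ U, A.ρ s m = m) (m : A) (hm : ∀ s ∈ U, A.ρ s m = m)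
    (z : Hlc D (permRep k U) 2) :
    hlcMap D (orbitMap A U m hm) 2 z ∈ genSpan D A U hA :=
  Submodule.subset_span ⟨(m, z), rfl⟩

/-- Push-forward maps `genSpan` into `genSpan`. -/
theorem map_genSpan_le (D : LevelDatum G) {A B : Rep.{0} k G} (f : A ⟶ B) (U : Subgroup G)
    (hA : ∀ m : A, ∀ s ∈ U, A.ρ s m = m) (hB : ∀ m : B, ∀ s ∈ U, B.ρ s m = m) :
    (genSpan D A U hA).map (hlcMap D f 2) ≤ genSpan D B U hB := by
  rw [Submodule.map_le_iff_le_comap]
  refine Submodule.span_le.mpr ?_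
  rintro _ ⟨⟨m, z⟩, rfl⟩
  show hlcMap D f 2 (hlcMap D (orbitMap A U m (hA m)) 2 z) ∈ genSpan D B U hB
  rw [← hlcMap_comp_apply, orbitMap_comp_hom]
  exact mem_genSpan D B U hB _ _ z

/-- Retracts. -/
theorem genSpan_eq_top_of_retract (D : LevelDatum G) {A B : Rep.{0} k G} (i : A ⟶ B)
    (r : B ⟶ A) (hir : i ≫ r = 𝟙 A) (U : Subgroup G)
    (hA : ∀ m : A, ∀ s ∈ U, A.ρ s m = m) (hB : ∀ m : B, ∀ s ∈ U, B.ρ s m = m)
    (h : genSpan D B U hB = ⊤) : genSpan D A U hA = ⊤ := by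
  rw [eq_top_iff]
  intro x _
  have h1 : x = hlcMap D r 2 (hlcMap D i 2 x) := by
    rw [← hlcMap_comp_apply, hir, hlcMap_id]
    rfl
  rw [h1]
  refine map_genSpan_le D r U hB hA ?_
  refine Submodule.mem_map_of_mem ?_
  rw [h]
  exact Submodule.mem_top

/-- Extensions. -/
theorem genSpan_eq_top_of_shortExact (D : LevelDatum G) (X : ShortComplex (Rep.{0} k G))
    (hX : X.ShortExact) (hsm : D.Smooth X.X₂) (U : Subgroup G)
    (h1 : ∀ m : X.X₁, ∀ s ∈ U, X.X₁.ρ s m = m) (h2 : ∀ m : X.X₂, ∀ s ∈ U, X.X₂.ρ s m = m)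
    (h3 : ∀ m : X.X₃, ∀ s ∈ U, X.X₃.ρ s m = m)
    (ht1 : genSpan D X.X₁ U h1 = ⊤) (ht3 : genSpan D X.X₃ U h3 = ⊤) :
    genSpan D X.X₂ U h2 = ⊤ := by
  have hse : (X.map (lcFunctor k D)).ShortExact := lc_shortExact k G D X hX hsm
  have hsurj : Function.Surjective X.g.hom := (Rep.epi_iff_surjective X.g).1 hX.epi_g
  have hle : genSpan D X.X₃ U h3 ≤ (genSpan D X.X₂ U h2).map (hlcMap D X.g 2) := by
    refine Submodule.span_le.mpr ?_
    rintro _ ⟨⟨m, z⟩, rfl⟩
    obtain ⟨b, rfl⟩ := hsurj m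
    refine ⟨hlcMap D (orbitMap X.X₂ U b (h2 b)) 2 z, mem_genSpan D X.X₂ U h2 _ _ z, ?_⟩
    show hlcMap D X.g 2 (hlcMap D (orbitMap X.X₂ U b (h2 b)) 2 z) = _
    rw [← hlcMap_comp_apply, orbitMap_comp_hom]
  rw [eq_top_iff]
  intro y _
  have hy3 : hlcMap D X.g 2 y ∈ genSpan D X.X₃ U h3 := by
    rw [ht3]
    exact Submodule.mem_top
  obtain ⟨y', hy', hyy'⟩ := hle hy3
  have hker : Fermat.Agent.S55.H99.lcG D X 2 (y - y') = 0 := by
    show hlcMap D X.g 2 (y - y') = 0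
    rw [map_sub, hyy', sub_self]
  obtain ⟨x, hx⟩ := Fermat.Agent.S55.H99.lc_exact_mid D hse 2 (y - y') hker
  have hx' : hlcMap D X.f 2 x = y - y' := hx
  have hxm : hlcMap D X.f 2 x ∈ genSpan D X.X₂ U h2 := by
    refine map_genSpan_le D X.f U h1 h2 (Submodule.mem_map_of_mem ?_)
    rw [ht1]
    exact Submodule.mem_top
  have : y = hlcMap D X.f 2 x + y' := by
    rw [hx']
    abel
  rw [this]
  exact Submodule.add_mem _ hxm hy'

end Fermat.Agent.S55.H80
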