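/-
S55 (Program C), package C4, leaf M2 (helper80): `H26.CoresSurjLeaf` from the purely
representation-theoretic closure principle `ClosureStatement` — the cohomological half:
(B) `k[G ⧸ H]` is generated (TRACE + INJ), the choice of `H` (preimage of a Sylow subgroup),
and the assembly.
-/
import Fermat.Agent.S55.H80.CoresSurjGen

set_option autoImplicit false

open CategoryTheory

noncomputable section

namespace Fermat.Agent.S55.H80

open Fermat.Agent.S55.H49 Fermat.Agent.S55.H26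

variable {G : Type} [Group G] {k : Type} [Field k]

/-- The base point of `k[G ⧸ H]`. -/
def basePt (k : Type) [Field k] (H : Subgroup G) : permRep k H :=
  MonoidAlgebra.single ((1 : G) : G ⧸ H) (1 : k)

/-- `k[G ⧸ H]` is fixed pointwise by a normal subgroup contained in `H`. -/
theorem permRep_fixed {U H : Subgroup G} (hU : U.Normal) (hUH : U ≤ H) :
    ∀ m : permRep k H, ∀ s ∈ U, (permRep k H).ρ s m = m := by
  intro m s hs
  have h : (permRep k H).ρ s = LinearMap.id := by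
    refine MonoidAlgebra.lhom_ext' fun x => LinearMap.ext fun r => ?_
    induction x using QuotientGroup.induction_on with
    | H a =>
      show (permRep k H).ρ s (MonoidAlgebra.single (a : G ⧸ H) r) =
        MonoidAlgebra.single (a : G ⧸ H) r
      have e : (permRep k H).ρ s (MonoidAlgebra.single (a : G ⧸ H) r) =
          MonoidAlgebra.single (s • (a : G ⧸ H)) r :=
        Representation.ofMulAction_single s _ r
      rw [e]
      congr 1
      show ((s * a : G) : G ⧸ H) = (a : G ⧸ H)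
      rw [QuotientGroup.eq]
      have h1 : a⁻¹ * s⁻¹ * a ∈ U := by
        have := hU.conj_mem s⁻¹ (U.inv_mem hs) a⁻¹
        simpa using this
      have h2 : (s * a)⁻¹ * a = a⁻¹ * s⁻¹ * a := by group
      rw [h2]
      exact hUH h1
  rw [h]
  rfl

theorem augChar_basePt (χ : G →* kˣ) (H : Subgroup G) (hχ : ∀ s ∈ H, χ s = 1) :
    (augChar χ H hχ).hom (basePt k H) = (1 : k) := by
  rw [augChar, basePt, permHom_single, charQuot_mk, map_one, Units.val_one, one_smul]

/-- The projection `k[G ⧸ U] ⟶ k[G ⧸ H]` composed with the augmentation is the augmentation. -/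
theorem proj_comp_augChar (χ : G →* kˣ) {U H : Subgroup G} (hχU : ∀ s ∈ U, χ s = 1)
    (hχH : ∀ s ∈ H, χ s = 1) (hb : ∀ s ∈ U, (permRep k H).ρ s (basePt k H) = basePt k H) :
    orbitMap (permRep k H) U (basePt k H) hb ≫ augChar χ H hχH = augChar χ U hχU :=
  orbitMap_comp χ (permRep k H) U hχU (basePt k H) hb (augChar χ H hχH) (augChar_basePt χ H hχH)

/-- (TRACE) gives non-vanishing at EVERY normal level on which `χ` is trivial. -/
theorem trace_at (D : LevelDatum G) (χ : G →* kˣ) (inv : Hlc D (mu χ) 2 →ₗ[k] k)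
    (hT : TraceStatement D χ inv) {F : IntermediateField ℚ (AlgebraicClosure ℚ)}
    (hF : D.Lev F) (hN : (F.fixingSubgroup).Normal) (hχ : ∀ s ∈ D.sub F, χ s = 1) :
    ∃ z : Hlc D (permRep k (D.sub F)) 2, inv (hlcMap D (augChar χ (D.sub F) hχ) 2 z) ≠ 0 := by
  obtain ⟨F', -, hle, hχ', z', hz'⟩ := hT F hF
  have hUU : D.sub F' ≤ D.sub F := D.sub_antitone hle
  have hb : ∀ s ∈ D.sub F', (permRep k (D.sub F)).ρ s (basePt k (D.sub F)) = basePt k (D.sub F) :=
    fun s hs => permRep_fixed (D.sub_normal hN) le_rfl _ s (hUU hs)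
  refine ⟨hlcMap D (orbitMap (permRep k (D.sub F)) (D.sub F') (basePt k (D.sub F)) hb) 2 z', ?_⟩
  rw [← hlcMap_comp_apply, proj_comp_augChar χ hχ' hχ hb]
  exact hz'

/-- **(B)**: `H²(G, k[G ⧸ H])` is generated from `H²(G, k[G ⧸ U])`, `U` a normal level subgroup
contained in `H`, `χ` trivial on `H`. -/
theorem genSpan_permRep_eq_top (D : LevelDatum G) (χ : G →* kˣ) (inv : Hlc D (mu χ) 2 →ₗ[k] k)
    (hT : TraceStatement D χ inv) (hI : InjStatement D χ inv)
    {F : IntermediateField ℚ (AlgebraicClosure ℚ)} (hF : D.Lev F)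
    (hN : (F.fixingSubgroup).Normal) (H : Subgroup G) (hUH : D.sub F ≤ H)
    (hχH : ∀ s ∈ H, χ s = 1)
    (hA : ∀ m : permRep k H, ∀ s ∈ D.sub F, (permRep k H).ρ s m = m) :
    genSpan D (permRep k H) (D.sub F) hA = ⊤ := by
  have hχU : ∀ s ∈ D.sub F, χ s = 1 := fun s hs => hχH s (hUH hs)
  obtain ⟨z₀, hz₀⟩ := trace_at D χ inv hT hF hN hχU
  rw [eq_top_iff]
  intro y _
  set a : k := inv (hlcMap D (augChar χ (D.sub F) hχU) 2 z₀) with ha
  set c : k := inv (hlcMap D (augChar χ H hχH) 2 y) with hc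
  have hkey : inv (hlcMap D (augChar χ H hχH) 2
      (y - hlcMap D (orbitMap (permRep k H) (D.sub F) (basePt k H) (hA _)) 2 ((c / a) • z₀)))
        = 0 := by
    rw [map_sub, map_sub, ← hlcMap_comp_apply, proj_comp_augChar χ hχU hχH (hA _), map_smul,
      map_smul, ← ha, ← hc, smul_eq_mul, div_mul_cancel₀ c hz₀, sub_self]
  have h0 := hI F hF hN H hUH hχH _ hkey
  rw [sub_eq_zero] at h0
  rw [h0]
  exact mem_genSpan D (permRep k H) (D.sub F) hA _ _ _


/-- The preimage `H` of a Sylow `p`-subgroup of `G ⧸ U`: `H ⧸ U` is a `p`-group, the index of `H`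
is invertible in `k`, and a character with values in `kˣ` trivial on `U` is trivial on `H`. -/
theorem exists_sylow_preimage (p : ℕ) [Fact p.Prime] [CharP k p] (U : Subgroup G) (hU : U.Normal)
    [U.FiniteIndex] (χ : G →* kˣ) (hχ : ∀ s ∈ U, χ s = 1) :
    ∃ H : Subgroup G, U ≤ H ∧ H.FiniteIndex ∧ (∀ h ∈ H, ∃ j : ℕ, h ^ p ^ j ∈ U) ∧
      ((H.index : k) ≠ 0) ∧ ∀ s ∈ H, χ s = 1 := by
  have := hU
  have : Finite (G ⧸ U) := Subgroup.finite_quotient_of_finiteIndex
  obtain ⟨P⟩ := (Sylow.nonempty : Nonempty (Sylow p (G ⧸ U)))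
  have hidx : ((P : Subgroup (G ⧸ U)).comap (QuotientGroup.mk' U)).index =
      (P : Subgroup (G ⧸ U)).index :=
    Subgroup.index_comap_of_surjective _ (QuotientGroup.mk'_surjective U)
  have hpow : ∀ h ∈ (P : Subgroup (G ⧸ U)).comap (QuotientGroup.mk' U),
      ∃ j : ℕ, h ^ p ^ j ∈ U := by
    intro h hh
    obtain ⟨j, hj⟩ := P.isPGroup' ⟨QuotientGroup.mk' U h, hh⟩
    refine ⟨j, ?_⟩
    have h1 : (QuotientGroup.mk' U h) ^ p ^ j = 1 := by
      have := congrArg Subtype.val hj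
      simpa using this
    rw [← map_pow] at h1
    exact (QuotientGroup.eq_one_iff _).mp h1
  refine ⟨(P : Subgroup (G ⧸ U)).comap (QuotientGroup.mk' U), ?_, ?_, hpow, ?_, ?_⟩
  · intro u hu
    rw [Subgroup.mem_comap]
    have : QuotientGroup.mk' U u = 1 := (QuotientGroup.eq_one_iff u).mpr hu
    rw [this]
    exact one_mem _
  · constructor
    rw [hidx]
    exact Subgroup.FiniteIndex.index_ne_zero
  · rw [hidx, Ne, CharP.cast_eq_zero_iff k p]
    exact P.not_dvd_index
  · intro h hh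
    obtain ⟨j, hj⟩ := hpow h hh
    have h1 : (χ h : k) ^ p ^ j = 1 := by
      rw [← Units.val_pow_eq_pow_val, ← map_pow, hχ _ hj, Units.val_one]
    have h2 : ((χ h : k) - 1) ^ p ^ j = 0 := by
      rw [sub_pow_char_pow, h1, one_pow, sub_self]
    have h3 : (χ h : k) - 1 = 0 := pow_eq_zero_iff (pow_ne_zero _ (Fact.out : p.Prime).ne_zero) |>.mp h2
    exact Units.ext (sub_eq_zero.mp h3)

/-- **Leaf M2 of C4 from the closure principle**: (TRACE) + (INJ) ⟹ (CORES-SURJ). -/
theorem coresSurjLeaf_of_closure (hCl : ClosureStatement) : CoresSurjLeaf := by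
  intro G _ k _ _ p _ _ D hNL hfin χ inv hT hI K hK hKfin x
  obtain ⟨FK, hFK, -, htriv⟩ := hK
  obtain ⟨F', hF', hle', hχ', -⟩ := hT FK hFK
  obtain ⟨F₀, hF₀, hle₀, hN₀⟩ := hNL F' hF'
  have hχ₀ : ∀ s ∈ D.sub F₀, χ s = 1 := fun s hs => hχ' s (D.sub_antitone hle₀ hs)
  have hK₀ : ∀ m : K, ∀ s ∈ D.sub F₀, K.ρ s m = m := fun m s hs =>
    htriv s (D.sub_antitone (hle'.trans hle₀) hs) m
  have hUn : (D.sub F₀).Normal := D.sub_normal hN₀
  have : (D.sub F₀).FiniteIndex := hfin F₀ hF₀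
  obtain ⟨H, hUH, hHfin, hpow, hidx, hχH⟩ :=
    exists_sylow_preimage (k := k) p (D.sub F₀) hUn χ hχ₀
  refine ⟨F₀, hF₀, hN₀, hχ₀, hK₀, ?_⟩
  let P : Rep.{0} k G → Prop := fun A =>
    ∃ hA : ∀ m : A, ∀ s ∈ D.sub F₀, A.ρ s m = m, genSpan D A (D.sub F₀) hA = ⊤
  have hP : P K := by
    refine hCl G k p (D.sub F₀) H hUn hUH hHfin hpow hidx P ?_ ?_ ?_ K hKfin hK₀
    · exact ⟨permRep_fixed hUn hUH,
        genSpan_permRep_eq_top D χ inv hT hI hF₀ hN₀ H hUH hχH _⟩
    · rintro X hX h2 ⟨h1, ht1⟩ ⟨h3, ht3⟩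
      exact ⟨h2, genSpan_eq_top_of_shortExact D X hX ⟨F₀, hF₀, hN₀, fun s hs m => h2 m s hs⟩
        (D.sub F₀) h1 h2 h3 ht1 ht3⟩
    · rintro A B i r hir ⟨hB, htB⟩
      have hA : ∀ m : A, ∀ s ∈ D.sub F₀, A.ρ s m = m := by
        intro m s hs
        have e : r.hom (i.hom m) = m := by
          have := congrArg (fun f : A ⟶ A => f.hom m) hir
          simpa using this
        rw [← e, ← Rep.hom_comm_apply, hB _ s hs]
      exact ⟨hA, genSpan_eq_top_of_retract D i r hir (D.sub F₀) hA hB htB⟩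
  obtain ⟨hA, htop⟩ := hP
  show x ∈ genSpan D K (D.sub F₀) hK₀
  rw [htop]
  exact Submodule.mem_top

end Fermat.Agent.S55.H80
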