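/-
S55 (Program C), package C4 (helper80): leaf M2 `H26.CoresSurjLeaf`, unconditional —
(TRACE) + (INJ) ⟹ (CORES-SURJ) for a finite field of characteristic `p` and a level datum with
normal levels of finite index.
-/
import Fermat.Agent.S55.H80.CoresSurjOfClosure
import Fermat.Agent.S55.H80.ClosureInd

set_option autoImplicit false

namespace Fermat.Agent.S55.H80

/-- **Leaf M2 of C4** (verbatim). -/
theorem coresSurjLeaf : Fermat.Agent.S55.H26.CoresSurjLeaf :=
  coresSurjLeaf_of_closure closure

end Fermat.Agent.S55.H80
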