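/-
S55 (Program C), package C3/C1 (helper80): leaf CY5 `LeafCycGen` of helper66's `CycDefs` —
change of generator for cyclic classes.
-/
import Fermat.Agent.S55.H80.CycBasic

set_option autoImplicit false

noncomputable section

namespace Fermat.Agent.S55.H80

open CategoryTheory groupCohomology Rep
open Fermat.Agent.S55.H66

/-- The carry identity behind the change of generator. -/
theorem carry_gen {n t x y : ℕ} (hn : 0 < n) (hx : x < n) (hy : y < n) :
    t * x / n + t * y / n + (if n ≤ (t * x) % n + (t * y) % n then 1 else 0)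
      = t * ((x + y) % n) / n + (if n ≤ x + y then t else 0) := by
  rw [← Nat.add_div hn, ← mul_add]
  by_cases hw : n ≤ x + y
  · rw [if_pos hw]
    have h1 : (x + y) % n = x + y - n := by
      rw [Nat.mod_eq_sub_mod hw]
      exact Nat.mod_eq_of_lt (by omega)
    rw [h1, ← Nat.add_mul_div_right _ _ hn, ← mul_add]
    congr 2
    omega
  · rw [if_neg hw, Nat.mod_eq_of_lt (not_le.mp hw), add_zero]

/-- A power of a generator by an exponent prime to the order is a generator. -/
theorem generates_pow_of_coprime {G : Type} [Group G] [Finite G] {σ : G}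
    (hσ : ∀ g : G, g ∈ Subgroup.zpowers σ) {t : ℕ} (ht : Nat.Coprime t (orderOf σ)) :
    ∀ g : G, g ∈ Subgroup.zpowers (σ ^ t) := by
  obtain ⟨m, hm⟩ := exists_pow_eq_self_of_coprime ht
  have h1 : σ ∈ Subgroup.zpowers (σ ^ t) := by
    have h2 : (σ ^ t) ^ m ∈ Subgroup.zpowers (σ ^ t) :=
      Subgroup.pow_mem _ (Subgroup.mem_zpowers _) m
    rwa [hm] at h2
  intro g
  exact (Subgroup.zpowers_le.mpr h1) (hσ g)

/-- **CY5.** -/
theorem leafCycGen : LeafCycGen := by
  intro k G _ _ _ A σ hσ t ht a ha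
  have hord : orderOf (σ ^ t) = orderOf σ := Nat.Coprime.orderOf_pow ht.symm
  have hτ : ∀ g : G, g ∈ Subgroup.zpowers (σ ^ t) := generates_pow_of_coprime hσ ht
  have hta : ∀ g : G, A.ρ g (t • a) = t • a := fun g => by rw [map_nsmul, ha]
  have hc := cycFun_mem_cocycles₂ A σ hσ a ha
  have hc' := cycFun_mem_cocycles₂ A (σ ^ t) hτ (t • a) hta
  rw [cycClass_eq A σ a hc, cycClass_eq A (σ ^ t) _ hc']
  rw [H2π_eq_iff]
  have hn0 : 0 < orderOf σ := orderOf_pos σ
  refine ⟨fun g => (t * cycIdx (σ ^ t) g / orderOf σ) • a, funext fun x => ?_⟩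
  obtain ⟨g, h⟩ := x
  have hi : cycIdx (σ ^ t) g < orderOf σ := hord ▸ cycIdx_lt hτ g
  have hj : cycIdx (σ ^ t) h < orderOf σ := hord ▸ cycIdx_lt hτ h
  have key : ∀ x : G, cycIdx σ x = (t * cycIdx (σ ^ t) x) % orderOf σ := by
    intro x
    have h1 : x = σ ^ (t * cycIdx (σ ^ t) x) := by
      conv_lhs => rw [← cycIdx_spec hτ x]
      rw [← pow_mul]
    conv_lhs => rw [h1]
    exact cycIdx_pow_mod σ _
  have hmul : cycIdx (σ ^ t) (g * h)
      = (cycIdx (σ ^ t) g + cycIdx (σ ^ t) h) % orderOf σ := by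
    rw [cycIdx_mul hτ, hord]
  have hk := congrArg (fun q : ℕ => q • a) (carry_gen (t := t) hn0 hi hj)
  simp only [add_smul, ite_smul, one_smul, zero_smul] at hk
  have hρ : ∀ (q : ℕ), A.ρ g (q • a) = q • a := by
    intro q
    rw [map_nsmul, ha]
  show A.ρ g ((t * cycIdx (σ ^ t) h / orderOf σ) • a)
      - (t * cycIdx (σ ^ t) (g * h) / orderOf σ) • a
      + (t * cycIdx (σ ^ t) g / orderOf σ) • a
    = cycFun A (σ ^ t) (t • a) (g, h) - cycFun A σ a (g, h)
  rw [hρ, hmul, cycFun_apply, cycFun_apply, key g, key h, hord]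
  have hk' : (t * ((cycIdx (σ ^ t) g + cycIdx (σ ^ t) h) % orderOf σ) / orderOf σ) • a
      = (t * cycIdx (σ ^ t) g / orderOf σ) • a + (t * cycIdx (σ ^ t) h / orderOf σ) • a
        + (if orderOf σ ≤ t * cycIdx (σ ^ t) g % orderOf σ + t * cycIdx (σ ^ t) h % orderOf σ
            then a else 0)
        - (if orderOf σ ≤ cycIdx (σ ^ t) g + cycIdx (σ ^ t) h then t • a else 0) := by
    rw [eq_sub_iff_add_eq]
    exact hk.symm
  rw [hk']
  abel

end Fermat.Agent.S55.H80
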