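/-
S55 (Poitou–Tate), package C8, export (B4) — helper80.  CYCLIC LAYERS, model-independent:
for a finite cyclic group `G` and a short exact sequence `0 → U → J → C → 0` of
`G`-representations with `H¹(G, U) = 0`,

* `exists_invariant_lift`        : every `G`-invariant of `C` lifts to a `G`-invariant of `J`;
* `mapH2_cycClass`               : cyclic classes are natural in the coefficients;
* `mapH2_surjective_of_cyclic`   : `H²(G, J) → H²(G, C)` is surjective
                                   (= hypothesis `hsurj` of `H29.lift_of_towers`);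
* `natCard_H2_eq_of_cyclic`      : if `s : H²(G, J) → T` has kernel the image of `H²(G, U)`,
                                   then `#H²(G, C) = #(range s)`
                                   (= hypothesis `hB₂` of `H29.lift_of_towers`, with `s` the sum
                                   of the local invariants of idele classes);
* `hsurj_of_cyclic_quotient`, `natCard_H2_eq_of_cyclic_quotient` : the same in the
                                   `quotientToInvariants` shape of `H29.lift_of_towers`;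
* `isZero_H1_quotientToInvariants` : `H¹(G, A) = 0 ⟹ H¹(G ⧸ N, A^N) = 0` (for `h1`: Hilbert 90
                                   at the top layer).
-/
import Fermat.Agent.S55.H80.CycRes
import Fermat.Agent.S55.H37.CycClass
import Fermat.Agent.S55.H29.C8H3

set_option autoImplicit false

open CategoryTheory groupCohomology Rep

noncomputable section

namespace Fermat.Agent.S55.H80

open Fermat.Agent.S55.H66 Fermat.Agent.S55.H29

section General

variable {k G : Type} [CommRing k] [Group G]

/-- Exactness of a short complex of representations, elementwise (same statement as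
`H88.rep_exact_iff`). -/
theorem rep_exact_elim (S : ShortComplex (Rep.{0, 0, 0} k G))
    (h : S.Exact) (x : S.X₂) (hx : S.g.hom x = 0) : ∃ y : S.X₁, S.f.hom y = x := by
  rw [← ShortComplex.exact_map_iff_of_faithful S (forget₂ (Rep.{0} k G) (ModuleCat.{0} k)),
    ShortComplex.moduleCat_exact_iff] at h
  exact h x hx

/-- For `0 → U → J → C → 0` with `H¹(G, U) = 0`, every invariant of `C` lifts to an invariant
of `J`. -/
theorem exists_invariant_lift {X : ShortComplex (Rep.{0, 0, 0} k G)} (hX : X.ShortExact)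
    (h1 : Limits.IsZero (groupCohomology X.X₁ 1)) (c : X.X₃) (hc : ∀ g : G, X.X₃.ρ g c = c) :
    ∃ j : X.X₂, (∀ g : G, X.X₂.ρ g j = j) ∧ X.g.hom j = c := by
  classical
  have hsurj : Function.Surjective X.g.hom := (Rep.epi_iff_surjective X.g).1 hX.epi_g
  have hinj : Function.Injective X.f.hom := (Rep.mono_iff_injective X.f).1 hX.mono_f
  have hgf : ∀ x : X.X₁, X.g.hom (X.f.hom x) = 0 := by
    intro x
    have h := congrArg (fun φ => φ.hom x) X.zero
    exact h
  obtain ⟨j₀, hj₀⟩ := hsurj c
  -- the 1-cocycle `γ ↦ γ j₀ - j₀` with values in `U`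
  have hex : ∀ γ : G, ∃ u : X.X₁, X.f.hom u = X.X₂.ρ γ j₀ - j₀ := by
    intro γ
    refine rep_exact_elim X hX.exact _ ?_
    rw [map_sub, Rep.hom_comm_apply X.g γ j₀, hj₀, hc γ, sub_self]
  choose u hu using hex
  have hcoc : u ∈ cocycles₁ X.X₁ := by
    rw [mem_cocycles₁_iff]
    intro γ δ
    apply hinj
    rw [map_add, Rep.hom_comm_apply X.f γ (u δ), hu, hu, hu, map_sub, map_mul,
      Module.End.mul_apply]
    abel
  have hsub : Subsingleton (groupCohomology X.X₁ 1) := ModuleCat.subsingleton_of_isZero h1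
  have hz : H1π X.X₁ ⟨u, hcoc⟩ = 0 := Subsingleton.elim _ _
  obtain ⟨a, ha⟩ := (H1π_eq_zero_iff _).1 hz
  have ha' : ∀ γ : G, X.X₁.ρ γ a - a = u γ := fun γ => congr_fun ha γ
  refine ⟨j₀ - X.f.hom a, fun γ => ?_, ?_⟩
  · have h2 : X.X₂.ρ γ (X.f.hom a) - X.f.hom a = X.X₂.ρ γ j₀ - j₀ := by
      rw [← Rep.hom_comm_apply X.f γ a, ← map_sub, ha' γ, hu]
    rw [map_sub]
    linear_combination (norm := abel) -h2
  · rw [map_sub, hgf, sub_zero, hj₀]

/-- Cyclic classes are natural in the coefficients. -/
theorem mapH2_cycClass [Finite G] {A B : Rep.{0, 0, 0} k G} (f : A ⟶ B) (σ : G)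
    (hσ : ∀ g : G, g ∈ Subgroup.zpowers σ) (a : A) (ha : ∀ g : G, A.ρ g a = a) :
    mapH2 f (cycClass A σ a) = cycClass B σ (f.hom a) := by
  have ha' : ∀ g : G, B.ρ g (f.hom a) = f.hom a := by
    intro g
    rw [← Rep.hom_comm_apply f g a, ha g]
  have hc := cycFun_mem_cocycles₂ A σ hσ a ha
  have hc' := cycFun_mem_cocycles₂ B σ hσ (f.hom a) ha'
  rw [cycClass_eq A σ a hc, cycClass_eq B σ _ hc']
  refine (H2π_comp_map_apply (MonoidHom.id G) f ⟨_, hc⟩).trans ?_
  congr 1
  apply cocycles₂_ext
  intro g h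
  show f.hom (cycFun A σ a (g, h)) = cycFun B σ (f.hom a) (g, h)
  rw [cycFun_apply, cycFun_apply]
  split_ifs
  · rfl
  · exact map_zero _

/-- **Cyclic layers: `H²(G, J) → H²(G, C)` is surjective** when `H¹(G, U) = 0`. -/
theorem mapH2_surjective_of_cyclic [Finite G] (σ : G) (hσ : ∀ g : G, g ∈ Subgroup.zpowers σ)
    {X : ShortComplex (Rep.{0, 0, 0} k G)} (hX : X.ShortExact)
    (h1 : Limits.IsZero (groupCohomology X.X₁ 1)) : Function.Surjective (mapH2 X.g) := by
  intro x
  obtain ⟨c, hc, rfl⟩ := Fermat.Agent.S55.H37.leafCycSurj k G X.X₃ σ hσ x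
  obtain ⟨j, hj, rfl⟩ := exists_invariant_lift hX h1 c hc
  exact ⟨cycClass X.X₂ σ j, mapH2_cycClass X.g σ hσ j hj⟩

end General

variable {G : Type} [Group G]

/-- **Cyclic layers: the order of `H²(G, C)`.**  If an additive map `s` out of `H²(G, J)` has
kernel the image of `H²(G, U)`, then `H²(G, C)` has as many elements as the range of `s`. -/
theorem natCard_H2_eq_of_cyclic [Finite G] (σ : G) (hσ : ∀ g : G, g ∈ Subgroup.zpowers σ)
    {X : ShortComplex (Rep.{0, 0, 0} ℤ G)} (hX : X.ShortExact)
    (h1 : Limits.IsZero (groupCohomology X.X₁ 1)) {T : Type*} [AddCommGroup T]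
    (s : groupCohomology X.X₂ 2 →+ T)
    (hs : ∀ y : groupCohomology X.X₂ 2, s y = 0 ↔ ∃ u : groupCohomology X.X₁ 2, mapH2 X.f u = y) :
    Nat.card (groupCohomology X.X₃ 2) = Nat.card s.range := by
  have hsurj := mapH2_surjective_of_cyclic σ hσ hX h1
  have hker : (mapH2 X.g).ker = s.ker := by
    ext y
    rw [AddMonoidHom.mem_ker, AddMonoidHom.mem_ker, hs]
    constructor
    · intro hy
      exact exists_mapH2_eq hX y hy
    · rintro ⟨u, rfl⟩
      have h := congrArg (fun φ => φ.hom u)
        ((functor ℤ G 2).map_comp X.f X.g).symm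
      have h0 : X.f ≫ X.g = 0 := X.zero
      rw [h0] at h
      have h3 : ((functor ℤ G 2).map (0 : X.X₁ ⟶ X.X₃)) = 0 := (functor ℤ G 2).map_zero _ _
      rw [h3] at h
      exact h
  have e1 : groupCohomology X.X₂ 2 ⧸ (mapH2 X.g).ker ≃+ groupCohomology X.X₃ 2 :=
    QuotientAddGroup.quotientKerEquivOfSurjective (mapH2 X.g) hsurj
  have e2 : groupCohomology X.X₂ 2 ⧸ (mapH2 X.g).ker ≃+ groupCohomology X.X₂ 2 ⧸ s.ker :=
    QuotientAddGroup.quotientAddEquivOfEq hker
  have e3 : groupCohomology X.X₂ 2 ⧸ s.ker ≃+ s.range := QuotientAddGroup.quotientKerEquivRange s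
  exact Nat.card_congr ((e1.symm.trans e2).trans e3).toEquiv

/-- `H¹(G, A) = 0` implies `H¹(G ⧸ N, A^N) = 0` (inflation is injective in degree 1). -/
theorem isZero_H1_quotientToInvariants {k G : Type} [CommRing k] [Group G]
    (A : Rep.{0, 0, 0} k G) (N : Subgroup G) [N.Normal]
    (h : Limits.IsZero (groupCohomology A 1)) :
    Limits.IsZero (groupCohomology (A.quotientToInvariants N) 1) := by
  have hm : Mono (groupCohomology.H1InfRes A N).f := inferInstance
  exact @Limits.IsZero.of_mono (ModuleCat k) _ _ (groupCohomology.H1InfRes A N).X₁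
    (groupCohomology.H1InfRes A N).X₂ (groupCohomology.H1InfRes A N).f hm h

/-- `hsurj` of `H29.lift_of_towers` for a cyclic quotient `G ⧸ N`. -/
theorem hsurj_of_cyclic_quotient {U J C : Rep.{0, 0, 0} ℤ G} (j : U ⟶ J) (π : J ⟶ C)
    (jπ : j ≫ π = 0) (N : Subgroup G) [N.Normal] [Finite (G ⧸ N)] (σ : G ⧸ N)
    (hσ : ∀ g : G ⧸ N, g ∈ Subgroup.zpowers σ)
    (hN : ((ShortComplex.mk j π jπ).map (quotientToInvariantsFunctor ℤ N)).ShortExact)
    (h1 : Limits.IsZero (groupCohomology (U.quotientToInvariants N) 1)) :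
    Function.Surjective (mapH2 ((quotientToInvariantsFunctor ℤ N).map π)) := by
  have h := mapH2_surjective_of_cyclic (k := ℤ) (G := G ⧸ N) σ hσ
    (X := (ShortComplex.mk j π jπ).map (quotientToInvariantsFunctor ℤ N)) hN
  have h' := h h1
  exact h'

/-- `hB₂` of `H29.lift_of_towers` for a cyclic quotient `G ⧸ N`: the order of
`H²(G ⧸ N, C^N)` is the order of the range of any additive map `s` out of `H²(G ⧸ N, J^N)` whose
kernel is the image of `H²(G ⧸ N, U^N)`. -/
theorem natCard_H2_eq_of_cyclic_quotient {U J C : Rep.{0, 0, 0} ℤ G} (j : U ⟶ J) (π : J ⟶ C)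
    (jπ : j ≫ π = 0) (N : Subgroup G) [N.Normal] [Finite (G ⧸ N)] (σ : G ⧸ N)
    (hσ : ∀ g : G ⧸ N, g ∈ Subgroup.zpowers σ)
    (hN : ((ShortComplex.mk j π jπ).map (quotientToInvariantsFunctor ℤ N)).ShortExact)
    (h1 : Limits.IsZero (groupCohomology (U.quotientToInvariants N) 1))
    {T : Type*} [AddCommGroup T]
    (s : groupCohomology (J.quotientToInvariants N) 2 →+ T)
    (hs : ∀ y : groupCohomology (J.quotientToInvariants N) 2, s y = 0 ↔
      ∃ u : groupCohomology (U.quotientToInvariants N) 2,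
        mapH2 ((quotientToInvariantsFunctor ℤ N).map j) u = y) :
    Nat.card (groupCohomology (C.quotientToInvariants N) 2) = Nat.card s.range := by
  have h := natCard_H2_eq_of_cyclic (G := G ⧸ N) σ hσ
    (X := (ShortComplex.mk j π jπ).map (quotientToInvariantsFunctor ℤ N)) hN
  have h' := h h1 s hs
  exact h'

end Fermat.Agent.S55.H80
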