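/-
S55 (Program C), package C9b (helper80): the arithmetic facts behind the definitions file of
the `G_S`-modules `ℚ_S^×`, `E_S`, `μ_p` — in a form free of representations, on elements of
`ℚ̄ˣ` with explicit predicates:

* `IsQS S u`    : `u` lies in a finite level unramified outside `S` (a unit of `ℚ_S`);
* `IsSUnit S u` : moreover `u` is a unit at every valuation subring over a prime outside `S`.

Proved: both predicates are closed under `1`, `*`, `⁻¹` and the Galois action; `p`-th roots of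
unity are `S`-units when `p ∈ S` (`isSUnit_of_pow_eq_one`); every `S`-unit of `ℚ_S` has a `p`-th
root among the `S`-units of `ℚ_S` when `p ∈ S` (`IsSUnit.exists_pow_eq`); every unit of `ℚ_S` is
fixed by the fixing subgroup of a Galois level unramified outside `S` (`IsQS.exists_normal_level`).
-/
import Mathlib
import Fermat.Prelude.Def_GroupCohomology_ContinuousUnramified
import Fermat.Agent.S55.H43.Levels
import Fermat.Agent.S55.H87.UnrKummer

set_option autoImplicit false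

namespace Fermat.Agent.S55.H80

open scoped Pointwise

local notation "Qb" => AlgebraicClosure ℚ
local notation "GQ" => (AlgebraicClosure ℚ ≃ₐ[ℚ] AlgebraicClosure ℚ)

variable (S : Finset Nat.Primes)

/-- `u` is a unit of `ℚ_S`: it lies in a finite level unramified outside `S`. -/
def IsQS (u : Qbˣ) : Prop :=
  ∃ N : IntermediateField ℚ Qb, N.IsUnramifiedOutside S ∧ (u : Qb) ∈ N

/-- `u` is an `S`-unit of `ℚ_S`. -/
def IsSUnit (u : Qbˣ) : Prop :=
  IsQS S u ∧ ∀ q : Nat.Primes, q ∉ S → ∀ A : ValuationSubring Qb, A.LiesOverPrime (q : ℕ) →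
    (u : Qb) ∈ A ∧ ((u⁻¹ : Qbˣ) : Qb) ∈ A

theorem isQS_iff (u : Qbˣ) :
    IsQS S u ↔ ∃ N : IntermediateField ℚ Qb, N.IsUnramifiedOutside S ∧ (u : Qb) ∈ N := Iff.rfl

theorem isSUnit_iff (u : Qbˣ) :
    IsSUnit S u ↔ ((∃ N : IntermediateField ℚ Qb, N.IsUnramifiedOutside S ∧ (u : Qb) ∈ N) ∧
      ∀ q : Nat.Primes, q ∉ S → ∀ A : ValuationSubring Qb, A.LiesOverPrime (q : ℕ) →
        (u : Qb) ∈ A ∧ ((u⁻¹ : Qbˣ) : Qb) ∈ A) := Iff.rfl

variable {S}

/-! ### Units of `ℚ_S` -/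

theorem isQS_one : IsQS S 1 :=
  ⟨⊥, IntermediateField.isUnramifiedOutside_bot S, by
    rw [Units.val_one]
    exact (⊥ : IntermediateField ℚ Qb).one_mem⟩

theorem IsQS.mul {u v : Qbˣ} (hu : IsQS S u) (hv : IsQS S v) : IsQS S (u * v) := by
  obtain ⟨N, hN, hu⟩ := hu
  obtain ⟨N', hN', hv⟩ := hv
  refine ⟨N ⊔ N', hN.sup hN', ?_⟩
  rw [Units.val_mul]
  exact mul_mem ((le_sup_left : N ≤ N ⊔ N') hu) ((le_sup_right : N' ≤ N ⊔ N') hv)

theorem IsQS.inv {u : Qbˣ} (hu : IsQS S u) : IsQS S u⁻¹ := by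
  obtain ⟨N, hN, hu⟩ := hu
  refine ⟨N, hN, ?_⟩
  rw [Units.val_inv_eq_inv_val]
  exact N.inv_mem hu

theorem IsQS.smul {u : Qbˣ} (hu : IsQS S u) (g : GQ) : IsQS S (g • u) := by
  obtain ⟨N, hN, hu⟩ := hu
  exact ⟨N.map (g : Qb →ₐ[ℚ] Qb), H43.isUnramifiedOutside_map hN g, ⟨(u : Qb), hu, rfl⟩⟩

/-- **Pointwise smoothness**: a unit of `ℚ_S` is fixed by the fixing subgroup of a Galois level
unramified outside `S`. -/
theorem IsQS.exists_normal_level {u : Qbˣ} (hu : IsQS S u) :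
    ∃ N : IntermediateField ℚ Qb, N.IsUnramifiedOutside S ∧ (N.fixingSubgroup).Normal ∧
      IsGalois ℚ N ∧ (u : Qb) ∈ N ∧ ∀ s ∈ N.fixingSubgroup, s • u = u := by
  obtain ⟨F, hF, hu⟩ := hu
  obtain ⟨N, hN, hle, hnor, hgal⟩ := H43.exists_normal_level hF
  refine ⟨N, hN, hnor, hgal, hle hu, fun s hs => ?_⟩
  ext
  exact (IntermediateField.mem_fixingSubgroup_iff N s).mp hs _ (hle hu)

/-! ### `S`-units of `ℚ_S` -/

theorem isSUnit_one : IsSUnit S 1 := by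
  refine ⟨isQS_one, fun q _ A _ => ?_⟩
  rw [inv_one, Units.val_one]
  exact ⟨A.one_mem, A.one_mem⟩

theorem IsSUnit.mul {u v : Qbˣ} (hu : IsSUnit S u) (hv : IsSUnit S v) : IsSUnit S (u * v) := by
  refine ⟨hu.1.mul hv.1, fun q hq A hA => ?_⟩
  obtain ⟨h1, h2⟩ := hu.2 q hq A hA
  obtain ⟨h3, h4⟩ := hv.2 q hq A hA
  rw [mul_inv, Units.val_mul, Units.val_mul]
  exact ⟨A.mul_mem _ _ h1 h3, A.mul_mem _ _ h2 h4⟩

theorem IsSUnit.inv {u : Qbˣ} (hu : IsSUnit S u) : IsSUnit S u⁻¹ := by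
  refine ⟨hu.1.inv, fun q hq A hA => ?_⟩
  obtain ⟨h1, h2⟩ := hu.2 q hq A hA
  rw [inv_inv]
  exact ⟨h2, h1⟩

theorem IsSUnit.smul {u : Qbˣ} (hu : IsSUnit S u) (g : GQ) : IsSUnit S (g • u) := by
  refine ⟨hu.1.smul g, fun q hq A hA => ?_⟩
  have hA' : (g⁻¹ • A).LiesOverPrime (q : ℕ) := H43.liesOverPrime_smul A g⁻¹ hA
  obtain ⟨h1, h2⟩ := hu.2 q hq (g⁻¹ • A) hA'
  rw [ValuationSubring.mem_pointwise_smul_iff_inv_smul_mem, inv_inv] at h1 h2
  refine ⟨h1, ?_⟩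
  have e : (((g • u)⁻¹ : Qbˣ) : Qb) = g • ((u⁻¹ : Qbˣ) : Qb) := by
    rw [← smul_inv']
    rfl
  rw [e]
  exact h2

theorem IsSUnit.isQS {u : Qbˣ} (hu : IsSUnit S u) : IsQS S u := hu.1

/-! ### Roots of unity and `p`-th roots -/

section Prime

variable {p : ℕ} [Fact p.Prime]

/-- `p`-th roots of unity are `S`-units of `ℚ_S` when `p ∈ S`. -/
theorem isSUnit_of_pow_eq_one (hpS : ExtCitation.pPrime p ∈ S) {u : Qbˣ} (hu : u ^ p = 1) :
    IsSUnit S u := by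
  have hp0 : p ≠ 0 := (Fact.out : p.Prime).ne_zero
  have hu' : (u : Qb) ^ p = 1 := by
    rw [← Units.val_pow_eq_pow_val, hu, Units.val_one]
  have hinv' : ((u⁻¹ : Qbˣ) : Qb) ^ p = 1 := by
    rw [← Units.val_pow_eq_pow_val, inv_pow, hu, inv_one, Units.val_one]
  refine ⟨⟨⊥ ⊔ IntermediateField.adjoin ℚ {(u : Qb)}, ?_, ?_⟩, fun q _ A _ => ⟨?_, ?_⟩⟩
  · refine H87.isUnramifiedOutside_sup_adjoin_of_unit hp0
      (fun q hq => by simpa using H87.coprime_pow_of_mem hpS 1 q hq)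
      (IntermediateField.isUnramifiedOutside_bot S) ?_ ?_
    · rw [hu']
      exact (⊥ : IntermediateField ℚ Qb).one_mem
    · intro q _ A _
      rw [hu', inv_one]
      exact ⟨A.one_mem, A.one_mem⟩
  · exact (le_sup_right : IntermediateField.adjoin ℚ {(u : Qb)} ≤ _)
      (IntermediateField.mem_adjoin_simple_self ℚ (u : Qb))
  · exact H87.mem_of_pow_mem A (Nat.pos_of_ne_zero hp0) (by rw [hu']; exact A.one_mem)
  · exact H87.mem_of_pow_mem A (Nat.pos_of_ne_zero hp0) (by rw [hinv']; exact A.one_mem)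

/-- **`p`-divisibility of the `S`-units of `ℚ_S`** (`p ∈ S`): every `S`-unit of `ℚ_S` is the
`p`-th power of an `S`-unit of `ℚ_S`. -/
theorem IsSUnit.exists_pow_eq (hpS : ExtCitation.pPrime p ∈ S) {u : Qbˣ} (hu : IsSUnit S u) :
    ∃ v : Qbˣ, IsSUnit S v ∧ v ^ p = u := by
  have hp0 : p ≠ 0 := (Fact.out : p.Prime).ne_zero
  obtain ⟨α, hα⟩ := IsAlgClosed.exists_pow_nat_eq (u : Qb) (Nat.pos_of_ne_zero hp0)
  have hα0 : α ≠ 0 := by
    rintro rfl
    rw [zero_pow hp0] at hα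
    exact u.ne_zero hα.symm
  obtain ⟨⟨N, hN, huN⟩, hunit⟩ := hu
  have hv : (Units.mk0 α hα0) ^ p = u := by
    ext
    rw [Units.val_pow_eq_pow_val, Units.val_mk0, hα]
  have hinv : ((((Units.mk0 α hα0)⁻¹ : Qbˣ)) : Qb) ^ p = ((u⁻¹ : Qbˣ) : Qb) := by
    rw [← Units.val_pow_eq_pow_val, inv_pow, hv]
  refine ⟨Units.mk0 α hα0, ⟨⟨N ⊔ IntermediateField.adjoin ℚ {α}, ?_, ?_⟩,
    fun q hq A hA => ⟨?_, ?_⟩⟩, hv⟩
  · refine H87.isUnramifiedOutside_sup_adjoin_of_unit hp0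
      (fun q hq => by simpa using H87.coprime_pow_of_mem hpS 1 q hq) hN ?_ ?_
    · rw [hα]
      exact huN
    · intro q hq A hA
      obtain ⟨h1, h2⟩ := hunit q hq A hA
      rw [hα]
      rw [Units.val_inv_eq_inv_val] at h2
      exact ⟨h1, h2⟩
  · rw [Units.val_mk0]
    exact (le_sup_right : IntermediateField.adjoin ℚ {α} ≤ _)
      (IntermediateField.mem_adjoin_simple_self ℚ α)
  · rw [Units.val_mk0]
    exact H87.mem_of_pow_mem A (Nat.pos_of_ne_zero hp0) (by rw [hα]; exact (hunit q hq A hA).1)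
  · exact H87.mem_of_pow_mem A (Nat.pos_of_ne_zero hp0)
      (by rw [hinv]; exact (hunit q hq A hA).2)

end Prime

end Fermat.Agent.S55.H80
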