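/-
S55 (Poitou–Tate), package C8, export (B4) — helper80.  The `p`-PRIMARY variant of helper29's
`H29.h3_of_lift`: if only the `p`-primary classes of `H²(G ⧸ N, C^N)` are known to inflate into
the image of `H²(G, J)` (`H80.lift_of_towers_pPrimary`), then the inflation
`H³(G ⧸ N, M^N) → H³(G, M)` kills the `p`-primary classes (`G ⧸ N` finite).

Proof: `x = u_* (δ c)`; `#(G ⧸ N) = p ^ a * m` kills `c` (`H80.card_smul_eq_zero`), so `m • c` is
`p`-primary and `m • x = u_* (δ (m • c))` dies after inflation; `p ^ k • x = 0` and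
`gcd (m, p ^ k) = 1` finish.
-/
import Fermat.Agent.S55.H29.C8H3
import Fermat.Agent.S55.H80.ResIndexCor

set_option autoImplicit false

open CategoryTheory groupCohomology Rep

noncomputable section

namespace Fermat.Agent.S55.H80

open Fermat.Agent.S55.H29

variable {G : Type} [Group G]

/-- **(B4), cohomological form, `p`-primary variant.**  Same hypotheses as `H29.h3_of_lift`,
with (LIFT) only for the `p`-primary classes of `H²(G ⧸ N, C^N)`; conclusion for the `p`-primary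
classes of `H³(G ⧸ N, M^N)`. -/
theorem h3_of_lift_pPrimary (N : Subgroup G) [N.Normal] [Finite (G ⧸ N)]
    {U M I J C : Rep.{0, 0, 0} ℤ G}
    (u : U ⟶ M) (q : M ⟶ I) (j : U ⟶ J) (π : J ⟶ C) (uq : u ≫ q = 0) (jπ : j ≫ π = 0)
    (hjπ : (ShortComplex.mk j π jπ).ShortExact)
    (huqN : ((ShortComplex.mk u q uq).map (quotientToInvariantsFunctor ℤ N)).ShortExact)
    (hjπN : ((ShortComplex.mk j π jπ).map (quotientToInvariantsFunctor ℤ N)).ShortExact)
    (hI3 : ∀ x : groupCohomology (M.quotientToInvariants N) 3,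
      mapHn 3 ((quotientToInvariantsFunctor ℤ N).map q) x = 0)
    (hJ3 : ∀ xu : groupCohomology (U.quotientToInvariants N) 3,
      mapHn 3 ((quotientToInvariantsFunctor ℤ N).map j) xu = 0)
    (p : ℕ) (hp : p.Prime)
    (hlift : ∀ c : groupCohomology (C.quotientToInvariants N) 2, (∃ k : ℕ, p ^ k • c = 0) →
      ∃ y : groupCohomology J 2, mapHn 2 π y = infHn 2 C N c)
    (x : groupCohomology (M.quotientToInvariants N) 3) (hx : ∃ k : ℕ, p ^ k • x = 0) :
    infHn 3 M N x = 0 := by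
  obtain ⟨k, hk⟩ := hx
  -- `x` comes from `H³(G/N, U^N)`
  obtain ⟨xu, rfl⟩ : ∃ xu : groupCohomology (U.quotientToInvariants N) 3,
      mapHn 3 ((quotientToInvariantsFunctor ℤ N).map u) xu = x :=
    (ShortComplex.moduleCat_exact_iff _).1 (mapShortComplex₂_exact huqN 3) x (hI3 x)
  -- `xu` is a coboundary `δ c`
  obtain ⟨c, rfl⟩ : ∃ c : groupCohomology (C.quotientToInvariants N) 2,
      (δ hjπN 2 3 rfl).hom c = xu :=
    (ShortComplex.moduleCat_exact_iff _).1 (mapShortComplex₁_exact hjπN (i := 2) (j := 3) rfl)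
      xu (hJ3 xu)
  -- the order of `G ⧸ N` kills `c`
  have hcard : Nat.card (G ⧸ N) • c = 0 :=
    card_smul_eq_zero (C.quotientToInvariants N) 2 (Or.inr rfl) c
  obtain ⟨a, m, hm, hn⟩ := Nat.exists_eq_pow_mul_and_not_dvd (Nat.card_pos (α := G ⧸ N)).ne' p
    hp.ne_one
  -- `m • c` is `p`-primary
  have hmc : p ^ a • (m • c) = 0 := by
    rw [← mul_nsmul', ← hn]
    exact hcard
  obtain ⟨y, hy⟩ := hlift (m • c) ⟨a, hmc⟩
  -- the inflation of `u_* (δ (m • c))` vanishes
  have h1 := infHn_mapHn 3 u N ((δ hjπN 2 3 rfl).hom (m • c))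
  have h2 : infHn 3 U N ((δ hjπN 2 3 rfl).hom (m • c)) =
      (δ hjπ 2 3 rfl).hom (infHn 2 C N (m • c)) :=
    congrArg (fun g => g.hom (m • c)) (delta_inf N (ShortComplex.mk j π jπ) hjπ hjπN 2 3 rfl)
  have h3 : (δ hjπ 2 3 rfl).hom (mapHn 2 π y) = 0 :=
    congrArg (fun g => g.hom y) (mapShortComplex₃ hjπ (i := 2) (j := 3) rfl).zero
  have h4 : (δ hjπ 2 3 rfl).hom (infHn 2 C N (m • c)) = 0 :=
    (congrArg (fun z => (δ hjπ 2 3 rfl).hom z) hy.symm).trans h3
  have h5 : infHn 3 M N (mapHn 3 ((quotientToInvariantsFunctor ℤ N).map u)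
      ((δ hjπN 2 3 rfl).hom (m • c))) = 0 :=
    h1.trans ((congrArg (mapHn 3 u) (h2.trans h4)).trans (map_zero _))
  -- hence `m` kills the inflation of `x`
  have h6 : m • infHn 3 M N (mapHn 3 ((quotientToInvariantsFunctor ℤ N).map u)
      ((δ hjπN 2 3 rfl).hom c)) = 0 := by
    have e1 : (δ hjπN 2 3 rfl).hom (m • c) = m • (δ hjπN 2 3 rfl).hom c :=
      map_nsmul (δ hjπN 2 3 rfl).hom m c
    have e2 := map_nsmul (mapHn 3 ((quotientToInvariantsFunctor ℤ N).map u)) m
      ((δ hjπN 2 3 rfl).hom c)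
    have e3 := map_nsmul (infHn 3 M N) m
      (mapHn 3 ((quotientToInvariantsFunctor ℤ N).map u) ((δ hjπN 2 3 rfl).hom c))
    exact (e3.symm.trans (congrArg (infHn 3 M N)
      (e2.symm.trans (congrArg (mapHn 3 ((quotientToInvariantsFunctor ℤ N).map u)) e1.symm)))).trans
      h5
  have h7 : p ^ k • infHn 3 M N (mapHn 3 ((quotientToInvariantsFunctor ℤ N).map u)
      ((δ hjπN 2 3 rfl).hom c)) = 0 := by
    rw [← map_nsmul, hk, map_zero]
  have hcop : Nat.Coprime m (p ^ k) :=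
    Nat.Coprime.pow_right k ((Nat.Prime.coprime_iff_not_dvd hp).mpr hm).symm
  exact eq_zero_of_coprime_nsmul hcop h6 h7

end Fermat.Agent.S55.H80
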