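/-
S55 (Poitou–Tate), package C8, export (B4) — helper80.  Inflation in degree 2 WITHOUT the
hypothesis `H¹(S, A) = 0`:

* `exists_H1_of_inf_eq_zero` : a class `x ∈ H²(G ⧸ S, A^S)` with `inf x = 0` is controlled by a
  class `h ∈ H¹(S, A)`: every integer killing `h` kills `x` (`x` is the transgression of `h`);
* `inf_eq_zero_pPrimary`     : if `S` is finite and `H¹(S, A)` has no `p`-primary element `≠ 0`,
  inflation `H²(G ⧸ S, A^S) → H²(G, A)` is injective on the `p`-primary classes;
* `H1_pPrimary_eq_zero_of_subgroup` : `H¹(S, A)` has no `p`-primary element `≠ 0` as soon as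
  `H¹(Q, A) = 0` for one subgroup `Q ≤ S` of index prime to `p` (a `p`-Sylow subgroup).

Use: `S = Gal(K''/E)` is NOT a `p`-group in (B4) (`E/k` the cyclic `p`-layer, `K'' = K·E`), and
the arithmetic at the single prime `p` gives `H¹(Q, C_{K''}) = 0` only for `p`-groups `Q`.
-/
import Fermat.Agent.S55.H55.InfRes2
import Fermat.Agent.S55.H80.ResIndexCor

set_option autoImplicit false

universe u

open CategoryTheory groupCohomology Rep

namespace Fermat.Agent.S55.H80

open Fermat.Agent.S55.H55.InfRes2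

variable {k G : Type u} [CommRing k] [Group G]

section Inf

variable (A : Rep k G) (S : Subgroup G) [S.Normal]

/-- **The kernel of inflation in degree 2 is controlled by `H¹(S, A)`.**  If `inf x = 0` for
`x ∈ H²(G ⧸ S, A^S)`, there is a class `h ∈ H¹(S, A)` such that every `n` with `n • h = 0`
satisfies `n • x = 0`. -/
theorem exists_H1_of_inf_eq_zero (x : groupCohomology (A.quotientToInvariants S) 2)
    (hx : (map (A := A.quotientToInvariants S) (B := A) (QuotientGroup.mk' S)
        (ofHom <| A.ρ.quotientToInvariants_lift S) 2).hom x = 0) :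
    ∃ h : groupCohomology (res S.subtype A) 1, ∀ n : ℕ, n • h = 0 → n • x = 0 := by
  classical
  induction x using H2_induction_on with | h F => ?_
  rw [H2π_comp_map_apply] at hx
  obtain ⟨ψ, hψ⟩ := (H2π_eq_zero_iff _).1 hx
  -- the cochain identity `dψ = inf F`
  have hd : ∀ g h : G, A.ρ g (ψ h) - ψ (g * h) + ψ g =
      ((F (QuotientGroup.mk g, QuotientGroup.mk h)) : A) := fun g h => congr_fun hψ (g, h)
  set c : A := ((F (1, 1)) : A) with hc
  have hcinv : ∀ s ∈ S, A.ρ s c = c := fun s hs => (F (1, 1)).2 ⟨s, hs⟩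
  have hF1 : ∀ s ∈ S, ∀ g : G,
      ((F (QuotientGroup.mk s, QuotientGroup.mk g)) : A) = c := by
    intro s hs g
    rw [(QuotientGroup.eq_one_iff s).2 hs, cocycles₂_map_one_fst F]
  have hF2 : ∀ s ∈ S, ∀ g : G,
      ((F (QuotientGroup.mk g, QuotientGroup.mk s)) : A) = A.ρ g c := by
    intro s hs g
    rw [(QuotientGroup.eq_one_iff s).2 hs, cocycles₂_map_one_snd F]
    rfl
  -- `ψ - c` is a 1-cocycle on `S`
  have hz : (fun s : S => ψ s.1 - c) ∈ cocycles₁ (res S.subtype A) := by
    rw [mem_cocycles₁_iff]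
    intro s t
    have h := hd s.1 t.1
    rw [hF1 s.1 s.2 t.1] at h
    show ψ (s.1 * t.1) - c = A.ρ s.1 (ψ t.1 - c) + (ψ s.1 - c)
    rw [map_sub, hcinv s.1 s.2]
    linear_combination (norm := abel) -h
  refine ⟨H1π (res S.subtype A) ⟨_, hz⟩, fun n hn => ?_⟩
  -- `n • (ψ - c)` is a coboundary on `S`
  have hn' : H1π (res S.subtype A) (n • (⟨_, hz⟩ : cocycles₁ (res S.subtype A))) = 0 := by
    rw [map_nsmul]
    exact hn
  obtain ⟨a, ha⟩ := (H1π_eq_zero_iff _).1 hn'
  have ha' : ∀ s ∈ S, n • (ψ s - c) = A.ρ s a - a := by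
    intro s hs
    have := congr_fun ha ⟨s, hs⟩
    exact this.symm
  set ψ' : G → A := fun g => n • ψ g - (A.ρ g a - a) with hψ'
  have hd' : ∀ g h : G, A.ρ g (ψ' h) - ψ' (g * h) + ψ' g =
      n • ((F (QuotientGroup.mk g, QuotientGroup.mk h)) : A) := by
    intro g h
    rw [← hd g h]
    simp only [hψ', map_sub, map_mul, Module.End.mul_apply, map_nsmul, smul_add, smul_sub]
    abel
  have hψ's : ∀ s ∈ S, ψ' s = n • c := by
    intro s hs
    have h := ha' s hs
    simp only [hψ']
    rw [← h, smul_sub]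
    abel
  have hr : ∀ g, ∀ s ∈ S, ψ' (g * s) = ψ' g := by
    intro g s hs
    have h := hd' g s
    rw [hF2 s hs g, hψ's s hs, map_nsmul] at h
    linear_combination (norm := abel) -h
  have hinv : ∀ g, ∀ s ∈ S, A.ρ s (ψ' g) = ψ' g := by
    intro g s hs
    have h := hd' s g
    rw [hF1 s hs g, hψ's s hs] at h
    have e : s * g = g * (g⁻¹ * s * g) := by group
    rw [e, hr g _ (Subgroup.Normal.conj_mem' ‹_› _ hs _)] at h
    linear_combination (norm := abel) h
  have hrep : ∀ g, ψ' (rep S g) = ψ' g := by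
    intro g
    rw [rep_mk S g, hr _ _ (inv_mul_rep_mem S g)]
  let ψb : G ⧸ S → A.quotientToInvariants S :=
    fun x => ⟨ψ' x.out, fun s => hinv _ s.1 s.2⟩
  have hψb : ∀ g : G, ((ψb (QuotientGroup.mk g)) : A) = ψ' g := fun g => hrep g
  rw [← map_nsmul, H2π_eq_zero_iff]
  refine ⟨ψb, ?_⟩
  ext ⟨x, y⟩
  induction x using QuotientGroup.induction_on with | H g =>
  induction y using QuotientGroup.induction_on with | H h =>
  change A.ρ g ((ψb (QuotientGroup.mk h)) : A) - ((ψb (QuotientGroup.mk g * QuotientGroup.mk h)) : A)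
    + ((ψb (QuotientGroup.mk g)) : A) = n • ((F (QuotientGroup.mk g, QuotientGroup.mk h)) : A)
  rw [← QuotientGroup.mk_mul, hψb, hψb, hψb]
  exact hd' g h

/-- **Inflation is injective on `p`-primary classes in degree 2** when `S` is finite and
`H¹(S, A)` has no nonzero `p`-primary element. -/
theorem inf_eq_zero_pPrimary [Finite S] (p : ℕ) (hp : p.Prime)
    (h1 : ∀ h : groupCohomology (res S.subtype A) 1, (∃ j : ℕ, p ^ j • h = 0) → h = 0)
    (x : groupCohomology (A.quotientToInvariants S) 2) (hxp : ∃ j : ℕ, p ^ j • x = 0)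
    (hx : (map (A := A.quotientToInvariants S) (B := A) (QuotientGroup.mk' S)
        (ofHom <| A.ρ.quotientToInvariants_lift S) 2).hom x = 0) : x = 0 := by
  obtain ⟨h, hh⟩ := exists_H1_of_inf_eq_zero A S x hx
  obtain ⟨j, hj⟩ := hxp
  have hcard : Nat.card S • h = 0 := card_smul_eq_zero (res S.subtype A) 1 (Or.inl rfl) h
  obtain ⟨a, m, hm, hn⟩ := Nat.exists_eq_pow_mul_and_not_dvd (Nat.card_pos (α := S)).ne' p
    hp.ne_one
  have hmh : m • h = 0 := by
    refine h1 (m • h) ⟨a, ?_⟩
    rw [← mul_nsmul', ← hn]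
    exact hcard
  have hmx : m • x = 0 := hh m hmh
  have hcop : Nat.Coprime m (p ^ j) :=
    Nat.Coprime.pow_right j ((Nat.Prime.coprime_iff_not_dvd hp).mpr hm).symm
  exact eq_zero_of_coprime_nsmul hcop hmx hj

end Inf

section Sylow

/-- `H¹(S, A)` has no nonzero `p`-primary element as soon as `H¹(Q, A) = 0` for one subgroup
`Q ≤ S` of finite index prime to `p`.  (Stated for a group `S` and a representation `B` of `S`;
apply it to `B = res S.subtype A`.) -/
theorem H1_pPrimary_eq_zero_of_subgroup {S : Type u} [Group S] (B : Rep k S) (Q : Subgroup S)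
    [Q.FiniteIndex] (p : ℕ) (hp : p.Prime) (hQ : ¬ p ∣ Q.index)
    (h0 : Limits.IsZero (groupCohomology (res Q.subtype B) 1))
    (h : groupCohomology B 1) (hh : ∃ j : ℕ, p ^ j • h = 0) : h = 0 := by
  obtain ⟨j, hj⟩ := hh
  have hsub : Subsingleton (groupCohomology (res Q.subtype B) 1) :=
    ModuleCat.subsingleton_of_isZero h0
  have hres : (map Q.subtype (𝟙 (res Q.subtype B)) 1).hom h = 0 := Subsingleton.elim _ _
  have hidx : Q.index • h = 0 := index_smul_eq_zero_of_res_eq_zero B Q 1 (Or.inl rfl) h hres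
  have hcop : Nat.Coprime Q.index (p ^ j) :=
    Nat.Coprime.pow_right j ((Nat.Prime.coprime_iff_not_dvd hp).mpr hQ).symm
  exact eq_zero_of_coprime_nsmul hcop hidx hj

end Sylow

end Fermat.Agent.S55.H80
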