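/-
S55 (Poitou–Tate), package C8, export (B4) — helper80.  `H80.InfInjP` in the vocabulary of
helper29's `C8Core` (`H29.infH2`): the hypothesis `hinj₂` of `H29.lift_of_towers` /
`H80.lift_of_towers_pPrimary` for a normal subgroup `N` which is NOT a `p`-group.

* `infH2_injective_of_pPrimary` : `#H²(G ⧸ N, C^N) = p ^ a`, `N` finite, `H¹(N, C)` without
  nonzero `p`-primary element  ⟹  `infH2 C N` injective;
* `infH2_injective_of_sylow`    : the same from `H¹(Q, C) = 0` for one subgroup `Q ≤ N` of index
  prime to `p`.
-/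
import Fermat.Agent.S55.H29.C8Core
import Fermat.Agent.S55.H80.InfInjP

set_option autoImplicit false

open CategoryTheory groupCohomology Rep

namespace Fermat.Agent.S55.H80

open Fermat.Agent.S55.H29

variable {G : Type} [Group G]

/-- Inflation `H²(G ⧸ N, C^N) → H²(G, C)` is injective when its source has `p ^ a` elements, `N`
is finite and `H¹(N, C)` has no nonzero `p`-primary element. -/
theorem infH2_injective_of_pPrimary (C : Rep.{0, 0, 0} ℤ G) (N : Subgroup G) [N.Normal]
    [Finite N] (p a : ℕ) (hp : p.Prime)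
    (hcard : Nat.card (groupCohomology (C.quotientToInvariants N) 2) = p ^ a)
    (h1 : ∀ h : groupCohomology (res N.subtype C) 1, (∃ j : ℕ, p ^ j • h = 0) → h = 0) :
    Function.Injective (infH2 C N) := by
  haveI : Finite (groupCohomology (C.quotientToInvariants N) 2) :=
    Nat.finite_of_card_ne_zero (by rw [hcard]; exact (pow_pos hp.pos a).ne')
  rw [injective_iff_map_eq_zero]
  intro x hx
  refine inf_eq_zero_pPrimary C N p hp h1 x ⟨a, ?_⟩ hx
  rw [← hcard]
  exact card_nsmul_eq_zero'

/-- Inflation `H²(G ⧸ N, C^N) → H²(G, C)` is injective when its source has `p ^ a` elements, `N`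
is finite and `H¹(Q, C) = 0` for one subgroup `Q ≤ N` of index prime to `p`. -/
theorem infH2_injective_of_sylow (C : Rep.{0, 0, 0} ℤ G) (N : Subgroup G) [N.Normal]
    [Finite N] (p a : ℕ) (hp : p.Prime)
    (hcard : Nat.card (groupCohomology (C.quotientToInvariants N) 2) = p ^ a)
    (Q : Subgroup N) (hQ : ¬ p ∣ Q.index)
    (h0 : Limits.IsZero (groupCohomology (res Q.subtype (res N.subtype C)) 1)) :
    Function.Injective (infH2 C N) :=
  infH2_injective_of_pPrimary C N p a hp hcard fun h hh =>
    H1_pPrimary_eq_zero_of_subgroup (res N.subtype C) Q p hp hQ h0 h hh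

end Fermat.Agent.S55.H80
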