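/-
S55 (Poitou–Tate), package C8, export (B4) — helper80.  The `p`-PRIMARY variant of helper29's
lifting lemma (`H29.lift_core`, `H29.lift_of_towers`).

`H29.lift_core` asks for `Nat.card B₁ ∣ p ^ a * m'` with `m'` prime to `p`, which needs `B₁`
(`= H²(G ⧸ N₁, C^N₁)`) to be FINITE, including its prime-to-`p` part.  The arithmetic of C8 at
the single prime `p` only controls the `p`-primary part.  Here the hypothesis is replaced by an
additive map `ρ : B₁ → Y` into a finite group with `#Y ∣ p ^ a` which is injective on the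
`p`-primary elements (in the application: restriction to a `p`-Sylow subgroup, `H80.ResIndex`,
and the bound `#H²(P, C) ∣ #P` of `H55.natCard_H2_dvd_card_of_prime_layers_of'`).

* `lift_core_pPrimary`      : pure group theory;
* `lift_of_towers_pPrimary` : the cohomological form, same conclusion as `H29.lift_of_towers`.
-/
import Fermat.Agent.S55.H29.C8Fund

set_option autoImplicit false

open CategoryTheory groupCohomology Rep

noncomputable section

namespace Fermat.Agent.S55.H80

/-- **Lifting lemma, `p`-primary variant (pure group theory).**  `inf₁ : B₁ → A`,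
`inf₂ : B₂ → A` injective, the range of `inf₂` contained in the ranges of `inf₁` and of
`π : X → A`, `#B₂ = p ^ a`, and `ρ : B₁ → Y` injective on the `p`-primary elements of `B₁` with
`Y` finite, `#Y ∣ p ^ a`.  Then `inf₁` maps every `p`-primary element of `B₁` into the range of
`inf₂`, hence of `π`. -/
theorem lift_core_pPrimary {A B₁ B₂ X Y : Type*} [AddCommGroup A] [AddCommGroup B₁]
    [AddCommGroup B₂] [AddCommGroup X] [AddCommGroup Y] [Finite Y]
    (inf₁ : B₁ →+ A) (inf₂ : B₂ →+ A) (π : X →+ A)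
    (hinj₁ : Function.Injective inf₁) (hinj₂ : Function.Injective inf₂)
    (h1 : inf₂.range ≤ π.range) (h2 : inf₂.range ≤ inf₁.range)
    (p a : ℕ) (hp : p.Prime) (hB₂ : Nat.card B₂ = p ^ a)
    (ρ : B₁ →+ Y) (hρ : ∀ b : B₁, (∃ k : ℕ, p ^ k • b = 0) → ρ b = 0 → b = 0)
    (hY : Nat.card Y ∣ p ^ a)
    (b₁ : B₁) (hb₁ : ∃ k : ℕ, p ^ k • b₁ = 0) : inf₁ b₁ ∈ π.range := by
  classical
  have hpa : 0 < p ^ a := pow_pos hp.pos a
  haveI : Finite B₂ := Nat.finite_of_card_ne_zero (by rw [hB₂]; exact hpa.ne')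
  -- the `p`-primary elements of `B₁`, as a set
  let T : Set B₁ := {b | ∃ k : ℕ, p ^ k • b = 0}
  -- the preimage of `range inf₂`
  let S₂ : Set B₁ := {b | inf₁ b ∈ inf₂.range}
  have hS₂T : S₂ ⊆ T := by
    intro b hb
    obtain ⟨c, hc⟩ := hb
    refine ⟨a, hinj₁ ?_⟩
    have hc0 : p ^ a • c = 0 := by
      rw [← hB₂]
      exact card_nsmul_eq_zero'
    rw [map_nsmul, ← hc, ← map_nsmul, hc0, map_zero, map_zero]
  -- `ρ` is injective on `T`
  have hρT : Set.InjOn ρ T := by
    intro b hb b' hb' hbb'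
    obtain ⟨k, hk⟩ := hb
    obtain ⟨k', hk'⟩ := hb'
    have h0 : b - b' = 0 := by
      refine hρ (b - b') ⟨k + k', ?_⟩ (by rw [map_sub, hbb', sub_self])
      have e1 : p ^ (k + k') • b = 0 := by
        have e : p ^ (k + k') • b = p ^ k' • (p ^ k • b) := by rw [pow_add, mul_nsmul]
        rw [e, hk, nsmul_zero]
      have e2 : p ^ (k + k') • b' = 0 := by
        have e : p ^ (k + k') • b' = p ^ k • (p ^ k' • b') := by
          rw [pow_add, mul_comm, mul_nsmul]
        rw [e, hk', nsmul_zero]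
      rw [smul_sub, e1, e2, sub_self]
    exact sub_eq_zero.mp h0
  have hTfin : T.Finite := Set.Finite.of_finite_image (Set.toFinite _) hρT
  have hTcard : T.ncard ≤ p ^ a := by
    have h3 : T.ncard ≤ Nat.card Y := by
      have h4 := Set.InjOn.ncard_image hρT
      rw [← h4, ← Set.ncard_univ Y]
      exact Set.ncard_le_ncard (Set.subset_univ _) Set.finite_univ
    exact h3.trans (Nat.le_of_dvd hpa hY)
  -- `S₂` has exactly `p ^ a` elements
  have hS₂card : S₂.ncard = p ^ a := by
    -- the bijection `B₂ → S₂`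
    have hex : ∀ c : B₂, ∃ b : B₁, inf₁ b = inf₂ c := fun c => h2 ⟨c, rfl⟩
    choose f hf using hex
    have hfinj : Function.Injective f := by
      intro c c' hcc'
      apply hinj₂
      rw [← hf c, ← hf c', hcc']
    have himg : Set.range f = S₂ := by
      ext b
      constructor
      · rintro ⟨c, rfl⟩
        exact ⟨c, (hf c).symm⟩
      · rintro ⟨c, hc⟩
        exact ⟨c, hinj₁ ((hf c).trans hc)⟩
    rw [← himg, ← Set.image_univ, Set.ncard_image_of_injective _ hfinj, Set.ncard_univ, hB₂]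
  have hST : S₂ = T :=
    Set.eq_of_subset_of_ncard_le hS₂T (by rw [hS₂card]; exact hTcard) hTfin
  have hb₁S : b₁ ∈ S₂ := by
    rw [hST]
    exact hb₁
  exact h1 hb₁S

variable {G : Type} [Group G]

open Fermat.Agent.S55.H29 in
/-- **LIFT (cohomological form), `p`-primary variant.**  Same setting and conclusion as
`H29.lift_of_towers`; the cardinality hypothesis on `H²(G ⧸ N₁, C^N₁)` is replaced by a map `ρ`
to a finite group of order dividing `p ^ a`, injective on the `p`-primary classes. -/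
theorem lift_of_towers_pPrimary {J C : Rep.{0, 0, 0} ℤ G} (π : J ⟶ C) (N₁ N₂ : Subgroup G)
    [N₁.Normal] [N₂.Normal]
    (hinj₁ : Function.Injective (infH2 C N₁)) (hinj₂ : Function.Injective (infH2 C N₂))
    (hex : ∀ x : groupCohomology C 2, resH2 C N₁ x = 0 → ∃ y, infH2 C N₁ y = x)
    (hsurj : Function.Surjective (mapH2 ((quotientToInvariantsFunctor ℤ N₂).map π)))
    (hvan : ∀ c : groupCohomology (J.quotientToInvariants N₂) 2,
      mapH2 ((resFunctor N₁.subtype).map π) (resH2 J N₁ (infH2 J N₂ c)) = 0)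
    (p a : ℕ) (hp : p.Prime)
    (hB₂ : Nat.card (groupCohomology (C.quotientToInvariants N₂) 2) = p ^ a)
    {Y : Type*} [AddCommGroup Y] [Finite Y]
    (ρ : groupCohomology (C.quotientToInvariants N₁) 2 →+ Y)
    (hρ : ∀ b : groupCohomology (C.quotientToInvariants N₁) 2,
      (∃ k : ℕ, p ^ k • b = 0) → ρ b = 0 → b = 0)
    (hY : Nat.card Y ∣ p ^ a)
    (b₁ : groupCohomology (C.quotientToInvariants N₁) 2) (hb₁ : ∃ k : ℕ, p ^ k • b₁ = 0) :
    ∃ x : groupCohomology J 2, mapH2 π x = infH2 C N₁ b₁ := by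
  have h1 : (infH2 C N₂).range ≤ (mapH2 π).range := by
    rintro _ ⟨b₂, rfl⟩
    obtain ⟨c, rfl⟩ := hsurj b₂
    exact ⟨infH2 J N₂ c, (infH2_mapH2 π N₂ c).symm⟩
  have h2 : (infH2 C N₂).range ≤ (infH2 C N₁).range := by
    rintro _ ⟨b₂, rfl⟩
    obtain ⟨c, rfl⟩ := hsurj b₂
    exact hex _ ((congrArg (resH2 C N₁) (infH2_mapH2 π N₂ c)).trans
      ((resH2_mapH2 π N₁ _).trans (hvan c)))
  exact lift_core_pPrimary (infH2 C N₁) (infH2 C N₂) (mapH2 π) hinj₁ hinj₂ h1 h2 p a hp hB₂
    ρ hρ hY b₁ hb₁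

end Fermat.Agent.S55.H80
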